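/-
S55 / Program C (helper87): UNR-KUMMER — Kummer extensions unramified outside `S`, in the
Prelude's vocabulary (`IntermediateField.IsUnramifiedOutside`, inertia subgroups of valuation
subrings of `ℚ̄`).

* `apply_eq_self_of_mem_inertia` : an inertia element at a place of residue characteristic prime
  to `n` which fixes `α ^ n` and an element `c` with `α ^ n / c ^ n` a unit at the place, fixes `α`.
* `isUnramifiedOutside_sup_adjoin` : if `L` is unramified outside `S`, every prime factor of `n`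
  lies in `S`, `α ^ n ∈ L` and, at every place `A` over a prime `q ∉ S`, `α ^ n` is an `n`-th power
  of an element of `L` times an `A`-unit (i.e. `n ∣ ord_A (α ^ n)`, as `L` is unramified at `q`),
  then `L(α)` is unramified outside `S`.
* `isUnramifiedOutside_sup_adjoin_of_unit` : the special case of `S`-units (`c = 1`): this is the
  `p`-divisibility of the `S`-units of `ℚ_S` used by the Kummer sequence.
-/
import Fermat.Prelude.Def_GroupCohomology_ContinuousUnramified
import Fermat.Agent.S29.H81.CycloFrob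

set_option autoImplicit false

namespace Fermat.Agent.S55.H87

open ValuationSubring

local notation "Qb" => AlgebraicClosure ℚ

/-- `x ^ n ∈ A` implies `x ∈ A` for a valuation subring `A` and `n > 0`. -/
theorem mem_of_pow_mem {Ω : Type*} [Field Ω] (A : ValuationSubring Ω) {x : Ω} {n : ℕ}
    (hn : 0 < n) (hx : x ^ n ∈ A) : x ∈ A := by
  rcases A.mem_or_inv_mem x with h | h
  · exact h
  · rcases eq_or_ne x 0 with rfl | hx0
    · exact A.zero_mem
    have h1 : x = x ^ n * (x⁻¹) ^ (n - 1) := by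
      obtain ⟨m, rfl⟩ : ∃ m, n = m + 1 := ⟨n - 1, by omega⟩
      simp only [Nat.add_sub_cancel]
      rw [pow_succ, inv_pow, mul_comm (x ^ m) x, mul_assoc, mul_inv_cancel₀ (pow_ne_zero m hx0),
        mul_one]
    rw [h1]
    exact A.mul_mem _ _ hx (pow_mem h _)

/-- An inertia element at a place of residue characteristic prime to `n` which fixes `α ^ n` and
an element `c ≠ 0` such that `α ^ n / c ^ n` is a unit at the place, fixes `α`. -/
theorem apply_eq_self_of_mem_inertia {A : ValuationSubring Qb} {q n : ℕ}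
    (hA : A.LiesOverPrime q) (hqn : Nat.Coprime q n) (hn : 0 < n)
    {σ : Qb ≃ₐ[ℚ] Qb} (hσ : σ ∈ A.inertiaSubgroupIn ℚ) {α c : Qb}
    (hα : σ (α ^ n) = α ^ n) (hc : σ c = c) (hc0 : c ≠ 0)
    (h1 : α ^ n / c ^ n ∈ A) (h2 : c ^ n / α ^ n ∈ A) : σ α = α := by
  rcases eq_or_ne α 0 with rfl | hα0
  · exact map_zero σ
  -- `β = α / c` is a unit at `A`
  set β : Qb := α / c with hβ
  have hβ0 : β ≠ 0 := div_ne_zero hα0 hc0
  have hβA : β ∈ A := mem_of_pow_mem A hn (by rw [hβ, div_pow]; exact h1)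
  have hβA' : β⁻¹ ∈ A := mem_of_pow_mem A hn (by rw [hβ, inv_div, div_pow]; exact h2)
  -- `ζ = σ β / β` is an `n`-th root of unity, `≡ 1` modulo the maximal ideal
  have hσβ : σ β = σ α / c := by rw [hβ, map_div₀, hc]
  have hζn : (σ β / β) ^ n = 1 := by
    rw [div_pow, ← map_pow, hβ, div_pow, map_div₀, hα, map_pow, hc]
    exact div_self (div_ne_zero (pow_ne_zero n hα0) (pow_ne_zero n hc0))
  have hdiff : σ β - β ∈ A.nonunits :=
    Fermat.Agent.S05.H63.apply_sub_mem_nonunits_of_mem_inertiaSubgroupIn hσ hβA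
  have hζ1 : σ β / β - 1 ∈ A.nonunits := by
    have e : σ β / β - 1 = (σ β - β) * β⁻¹ := by
      field_simp
    rw [e, ValuationSubring.mem_nonunits_iff, map_mul]
    have hv1 : A.valuation (σ β - β) < 1 := hdiff
    have hv2 : A.valuation β⁻¹ ≤ 1 := (A.valuation_le_one_iff _).mpr hβA'
    calc A.valuation (σ β - β) * A.valuation β⁻¹ ≤ A.valuation (σ β - β) * 1 :=
          mul_le_mul' le_rfl hv2
      _ < 1 := by rwa [mul_one]
  have hζ : σ β / β = 1 :=
    Fermat.Agent.S29.H81.eq_one_of_sub_one_mem_nonunits A hA hqn hζn hζ1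
  have hσβ' : σ β = β := by
    rw [div_eq_one_iff_eq hβ0] at hζ
    exact hζ
  rw [hσβ, hβ] at hσβ'
  have := congrArg (· * c) hσβ'
  simpa [div_mul_cancel₀ _ hc0] using this

/-- An automorphism fixing `α` fixes `ℚ(α)` pointwise. -/
theorem mem_fixingSubgroup_adjoin_singleton {σ : Qb ≃ₐ[ℚ] Qb} {α : Qb} (h : σ α = α) :
    σ ∈ (IntermediateField.adjoin ℚ {α}).fixingSubgroup := by
  rw [IntermediateField.mem_fixingSubgroup_iff]
  have hle : IntermediateField.adjoin ℚ {α} ≤ IntermediateField.fixedField (Subgroup.zpowers σ) := by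
    rw [IntermediateField.adjoin_le_iff]
    rintro x hx
    rw [Set.mem_singleton_iff] at hx
    subst hx
    rw [SetLike.mem_coe, IntermediateField.mem_fixedField_iff]
    rintro τ hτ
    obtain ⟨k, rfl⟩ := Subgroup.mem_zpowers_iff.mp hτ
    have hfix : σ ∈ MulAction.stabilizer (Qb ≃ₐ[ℚ] Qb) x := h
    exact (MulAction.stabilizer (Qb ≃ₐ[ℚ] Qb) x).zpow_mem hfix k
  intro x hx
  have := (IntermediateField.mem_fixedField_iff _ x).mp (hle hx) σ (Subgroup.mem_zpowers σ)
  exact this

/-- **UNR-KUMMER.**  Let `L` be unramified outside `S`, `n ≠ 0` prime to every prime outside `S`,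
`α ^ n ∈ L`, and assume that at every valuation subring `A` of `ℚ̄` over a prime `q ∉ S` the
element `α ^ n` is the `n`-th power of an element of `L` times an `A`-unit.  Then `L(α)` is
unramified outside `S`. -/
theorem isUnramifiedOutside_sup_adjoin {S : Finset Nat.Primes} {n : ℕ} (hn0 : n ≠ 0)
    (hn : ∀ q : Nat.Primes, q ∉ S → Nat.Coprime (q : ℕ) n)
    {L : IntermediateField ℚ Qb} (hL : L.IsUnramifiedOutside S) {α : Qb} (hαL : α ^ n ∈ L)
    (hord : ∀ q : Nat.Primes, q ∉ S → ∀ A : ValuationSubring Qb, A.LiesOverPrime (q : ℕ) →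
      ∃ c ∈ L, c ≠ 0 ∧ α ^ n / c ^ n ∈ A ∧ c ^ n / α ^ n ∈ A) :
    (L ⊔ IntermediateField.adjoin ℚ {α}).IsUnramifiedOutside S := by
  haveI := hL.1
  have hint : IsIntegral ℚ α := ((AlgebraicClosure.isAlgebraic ℚ).isAlgebraic α).isIntegral
  haveI : FiniteDimensional ℚ (IntermediateField.adjoin ℚ {α}) :=
    IntermediateField.adjoin.finiteDimensional hint
  refine ⟨IntermediateField.finiteDimensional_sup L _, fun q hq A hA σ hσ => ?_⟩
  have hσL : σ ∈ L.fixingSubgroup := hL.2 q hq A hA hσ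
  have hfix : ∀ x ∈ L, σ x = x := (IntermediateField.mem_fixingSubgroup_iff L σ).mp hσL
  obtain ⟨c, hcL, hc0, h1, h2⟩ := hord q hq A hA
  have hσα : σ α = α :=
    apply_eq_self_of_mem_inertia hA (hn q hq) (Nat.pos_of_ne_zero hn0) hσ (hfix _ hαL)
      (hfix c hcL) hc0 h1 h2
  rw [IntermediateField.fixingSubgroup_sup]
  exact ⟨hσL, mem_fixingSubgroup_adjoin_singleton hσα⟩

/-- The case of `S`-units: if `α ^ n ∈ L` is a unit at every place over a prime outside `S`, then
`L(α)` is unramified outside `S`. -/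
theorem isUnramifiedOutside_sup_adjoin_of_unit {S : Finset Nat.Primes} {n : ℕ} (hn0 : n ≠ 0)
    (hn : ∀ q : Nat.Primes, q ∉ S → Nat.Coprime (q : ℕ) n)
    {L : IntermediateField ℚ Qb} (hL : L.IsUnramifiedOutside S) {α : Qb} (hαL : α ^ n ∈ L)
    (hunit : ∀ q : Nat.Primes, q ∉ S → ∀ A : ValuationSubring Qb, A.LiesOverPrime (q : ℕ) →
      α ^ n ∈ A ∧ (α ^ n)⁻¹ ∈ A) :
    (L ⊔ IntermediateField.adjoin ℚ {α}).IsUnramifiedOutside S := by
  refine isUnramifiedOutside_sup_adjoin hn0 hn hL hαL fun q hq A hA => ?_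
  obtain ⟨h1, h2⟩ := hunit q hq A hA
  exact ⟨1, L.one_mem, one_ne_zero, by simpa using h1, by simpa using h2⟩

/-- For `n = p ^ k` with `p ∈ S`: the coprimality hypothesis. -/
theorem coprime_pow_of_mem {p : ℕ} [Fact p.Prime] {S : Finset Nat.Primes}
    (hpS : ExtCitation.pPrime p ∈ S) (k : ℕ) (q : Nat.Primes) (hq : q ∉ S) :
    Nat.Coprime (q : ℕ) (p ^ k) := by
  have hqp : (q : ℕ) ≠ p := by
    intro h
    apply hq
    have : q = ExtCitation.pPrime p := Subtype.ext h
    rw [this]
    exact hpS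
  exact Nat.Coprime.pow_right k ((Nat.coprime_primes q.2 Fact.out).mpr hqp)

end Fermat.Agent.S55.H87
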