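/-
S55 / Program C, package C9a (helper87): THE TWO NUMBERS `c L`, `d L` of the count.

For a number field `K`, a finite set `T` of primes of `𝓞 K` and a prime number `p`:

* `pDivGroup K T p` `= V_T = {a ∈ Kˣ : p ∣ ord_w a for all w ∉ T}`;
* `powGroup K p`    `= Kˣᵖ`;
* `H83.sUnit K T`   `= E_T`, the `T`-units (Mathlib's `Set.unit`);
* `cIdx K T p = log_p (V_T : E_T · Kˣᵖ)`   (`= dim_{𝔽_p} Cl_T(K)[p]`);
* `dIdx K T   = #{infinite places of K} + #T` (`= dim_{𝔽_p} E_T / E_Tᵖ` when `μ_p ⊆ K`).

For a level field `L ⊆ ℚ̄` (finite over `ℚ`) and a finite set `S` of rational primes: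
`placesOver L S` = the primes of `𝓞 L` above `S`, and

* `cNum p S L = cIdx L (placesOver L S) p`,   `dNum S L = dIdx L (placesOver L S)`

(both `0` by convention if `L` is not finite over `ℚ`).  These are the `c`, `d` at which the leaves
`HasseStatement`, `KummerStatement`, `IsotropyStatement` of `BaseChain` / `CountChain` are to be
proved.
-/
import Mathlib
import Fermat.Agent.S55.H83.SUnitCard

set_option autoImplicit false

open IsDedekindDomain HeightOneSpectrum NumberField

namespace Fermat.Agent.S55.H87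

noncomputable section

section NumberField

variable (K : Type*) [Field K] [NumberField K]

/-- The primes of `𝓞 K` above the rational primes in `S`, as a set. -/
def placesOverSet (S : Finset Nat.Primes) : Set (HeightOneSpectrum (𝓞 K)) :=
  {w | ∃ q ∈ S, (((q : ℕ) : ℤ) : 𝓞 K) ∈ w.asIdeal}

theorem placesOverSet_finite (S : Finset Nat.Primes) : (placesOverSet K S).Finite := by
  classical
  have h : placesOverSet K S ⊆
      ⋃ q ∈ S, {w : HeightOneSpectrum (𝓞 K) |
        w.asIdeal ∣ Ideal.span {(((q : ℕ) : ℤ) : 𝓞 K)}} := by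
    rintro w ⟨q, hq, hw⟩
    simp only [Set.mem_iUnion, Set.mem_ofPred_eq]
    refine ⟨q, hq, ?_⟩
    rw [Ideal.dvd_iff_le, Ideal.span_singleton_le_iff_mem]
    exact hw
  refine Set.Finite.subset (Set.Finite.biUnion S.finite_toSet fun q _ => ?_) h
  refine Ideal.finite_factors fun h0 => ?_
  rw [Ideal.zero_eq_bot, Ideal.span_singleton_eq_bot] at h0
  have hq : ((q : ℕ) : ℤ) ≠ 0 := by exact_mod_cast q.2.ne_zero
  exact hq (by exact_mod_cast h0)

/-- The primes of `𝓞 K` above the rational primes in `S`. -/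
def placesOver (S : Finset Nat.Primes) : Finset (HeightOneSpectrum (𝓞 K)) :=
  (placesOverSet_finite K S).toFinset

theorem mem_placesOver (S : Finset Nat.Primes) (w : HeightOneSpectrum (𝓞 K)) :
    w ∈ placesOver K S ↔ ∃ q ∈ S, (((q : ℕ) : ℤ) : 𝓞 K) ∈ w.asIdeal := by
  rw [placesOver, Set.Finite.mem_toFinset]
  rfl

/-- `V_T = {a ∈ Kˣ : p ∣ ord_w a for all w ∉ T}`. -/
def pDivGroup (T : Finset (HeightOneSpectrum (𝓞 K))) (p : ℕ) : Subgroup Kˣ where
  carrier := {a | ∀ w : HeightOneSpectrum (𝓞 K), w ∉ T → (p : ℤ) ∣ H83.ordv K w a}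
  mul_mem' := by
    intro a b ha hb w hw
    rw [H83.ordv_mul]
    exact dvd_add (ha w hw) (hb w hw)
  one_mem' := by
    intro w _
    rw [H83.ordv_one]
    exact dvd_zero _
  inv_mem' := by
    intro a ha w hw
    have h1 : H83.ordv K w a⁻¹ + H83.ordv K w a = 0 := by
      rw [← H83.ordv_mul, inv_mul_cancel, H83.ordv_one]
    have h2 : H83.ordv K w a⁻¹ = -H83.ordv K w a := by omega
    rw [h2]
    exact (dvd_neg).mpr (ha w hw)

theorem mem_pDivGroup (T : Finset (HeightOneSpectrum (𝓞 K))) (p : ℕ) (a : Kˣ) :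
    a ∈ pDivGroup K T p ↔ ∀ w : HeightOneSpectrum (𝓞 K), w ∉ T → (p : ℤ) ∣ H83.ordv K w a :=
  Iff.rfl

/-- `Kˣᵖ`. -/
def powGroup (p : ℕ) : Subgroup Kˣ := (powMonoidHom p : Kˣ →* Kˣ).range

omit [NumberField K] in
theorem mem_powGroup (p : ℕ) (a : Kˣ) : a ∈ powGroup K p ↔ ∃ b : Kˣ, b ^ p = a := by
  rw [powGroup, MonoidHom.mem_range]
  rfl

/-- `c = log_p (V_T : E_T · Kˣᵖ)`. -/
def cIdx (T : Finset (HeightOneSpectrum (𝓞 K))) (p : ℕ) : ℕ :=
  Nat.log p ((H83.sUnit K T ⊔ powGroup K p).relIndex (pDivGroup K T p))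

/-- `d = #{infinite places} + #T`. -/
def dIdx (T : Finset (HeightOneSpectrum (𝓞 K))) : ℕ :=
  Fintype.card (InfinitePlace K) + T.card

end NumberField

section Level

/-- A subfield of `ℚ̄` that is finite over `ℚ` is a number field. -/
theorem numberField_of_finiteDimensional (L : IntermediateField ℚ (AlgebraicClosure ℚ))
    (h : FiniteDimensional ℚ L) : NumberField L :=
  { to_charZero := inferInstance
    to_finiteDimensional := h }

open Classical in
/-- `c L = log_p (V_S(L) : E_S(L) · Lˣᵖ)` for the primes of `L` above `S`. -/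
def cNum (p : ℕ) (S : Finset Nat.Primes) (L : IntermediateField ℚ (AlgebraicClosure ℚ)) : ℕ :=
  if h : FiniteDimensional ℚ L then
    haveI : NumberField L := numberField_of_finiteDimensional L h
    cIdx L (placesOver L S) p
  else 0

open Classical in
/-- `d L = #{infinite places of L} + #{primes of L above S}`. -/
def dNum (S : Finset Nat.Primes) (L : IntermediateField ℚ (AlgebraicClosure ℚ)) : ℕ :=
  if h : FiniteDimensional ℚ L then
    haveI : NumberField L := numberField_of_finiteDimensional L h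
    dIdx L (placesOver L S)
  else 0

theorem cNum_eq (p : ℕ) (S : Finset Nat.Primes) (L : IntermediateField ℚ (AlgebraicClosure ℚ))
    [NumberField L] : cNum p S L = cIdx L (placesOver L S) p := by
  have h : FiniteDimensional ℚ L := inferInstance
  rw [cNum, dif_pos h]

theorem dNum_eq (S : Finset Nat.Primes) (L : IntermediateField ℚ (AlgebraicClosure ℚ))
    [NumberField L] : dNum S L = dIdx L (placesOver L S) := by
  have h : FiniteDimensional ℚ L := inferInstance
  rw [dNum, dif_pos h]

end Level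

end

end Fermat.Agent.S55.H87
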