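/-
S55 / Program C, package C9a (helper87): THE BASE CASE `(G_L)` OF ROUTE R, formal layer.

`RPackage.BaseCase` (bijectivity of `α_F : H²(G_S, F_L) → H¹_c(G_S, F_L')^∨` for
`F_L = 𝔽_p[G_ℚ / G_L]`) is reduced, by COUNTING, to:

* `BaseInj`  (soft half, `H¹_c(F_L') ↪ H²(F_L)^∨`), itself reduced to
  - `ExStatement` (EX: the pairing is nondegenerate on the image `loc0` of the local `H⁰`'s) and
  - `GoUp` (every class of `H¹_c(F_L')` lands in `loc0` after passing to a larger level field;
    naturality of the pairing; left exactness of `H¹_c`);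
* `HasseStatement c`  (`dim sha₂ S F_L ≤ c L`), and
* `CountStatement c`  (`c L` linearly independent classes in `sha₁ S F_L'`),

for one and the same function `c` (in the application `c L = dim_{𝔽_p} Cl_S(L)[p]`), together
with the leaves `Bridge`, `LocalCriterion` of the top chain and two small ones (`BaseAdm`,
`Loc0Fin`).  No finiteness is assumed: it comes out of the count.
-/
import Fermat.Agent.S55.H70.ChainR

set_option autoImplicit false

open CategoryTheory Module groupCohomology ExtCitation

namespace Fermat.Agent.S55.H87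

section LinearAlgebra

variable {k : Type*} [Field k]

/-- **The counting lemma.**  `P : H × A → k` a pairing; `I ⊆ A` finite-dimensional; `Y = I^⊥ ⊆ H`
finite-dimensional of dimension `≤ c`; `A / I` (realised as the range of `τ`, `ker τ = I`) contains
`c` linearly independent elements; `P` has trivial right kernel.  Then `P` is perfect:
`H → A^∨` is bijective. -/
theorem bijective_of_count {H A C : Type*} [AddCommGroup H] [Module k H]
    [AddCommGroup A] [Module k A] [AddCommGroup C] [Module k C]
    (P : H →ₗ[k] A →ₗ[k] k)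
    (I : Submodule k A) [FiniteDimensional k I]
    (Y : Submodule k H) (hY : ∀ x, x ∈ Y ↔ ∀ f ∈ I, P x f = 0) [FiniteDimensional k Y]
    (c : ℕ) (hc : finrank k Y ≤ c)
    (τ : A →ₗ[k] C) (hτ : LinearMap.ker τ = I)
    (v : Fin c → LinearMap.range τ) (hv : LinearIndependent k v)
    (hinj : ∀ y, (∀ x, P x y = 0) → y = 0) :
    Function.Bijective P := by
  -- the restriction map `H → I^∨` has kernel `Y`
  let r : H →ₗ[k] Module.Dual k I := (Submodule.dualRestrict I) ∘ₗ P
  have hker : LinearMap.ker r = Y := by
    ext x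
    rw [LinearMap.mem_ker, hY]
    constructor
    · intro hx a ha
      have := congrArg (fun f : Module.Dual k I => f ⟨a, ha⟩) hx
      simpa [r, Submodule.dualRestrict_apply] using this
    · intro hx
      ext ⟨a, ha⟩
      simpa [r, Submodule.dualRestrict_apply] using hx a ha
  -- `H` is finite-dimensional
  have hfdq : FiniteDimensional k (H ⧸ Y) := by
    have e : (H ⧸ LinearMap.ker r) ≃ₗ[k] LinearMap.range r := r.quotKerEquivRange
    rw [hker] at e
    exact Module.Finite.equiv e.symm
  have hfdH : FiniteDimensional k H := Module.Finite.of_submodule_quotient Y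
  have hH : finrank k H ≤ c + finrank k I := by
    have h1 := LinearMap.finrank_range_add_finrank_ker r
    rw [hker] at h1
    have h2 : finrank k (LinearMap.range r) ≤ finrank k (Module.Dual k I) :=
      Submodule.finrank_le _
    rw [Subspace.dual_finrank_eq] at h2
    omega
  -- `A` embeds into the dual of `H`
  have hinj' : Function.Injective P.flip := by
    rw [← LinearMap.ker_eq_bot, LinearMap.ker_eq_bot']
    intro a ha
    refine hinj a fun x => ?_
    have := congrArg (fun f : H →ₗ[k] k => f x) ha
    simpa using this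
  have hfdA : FiniteDimensional k A := FiniteDimensional.of_injective P.flip hinj'
  have hA1 : finrank k A ≤ finrank k H := by
    have := LinearMap.finrank_le_finrank_of_injective hinj'
    rwa [Subspace.dual_finrank_eq] at this
  -- `dim A = dim I + dim (range τ) ≥ dim I + c`
  have hA2 : c + finrank k I ≤ finrank k A := by
    have h1 := LinearMap.finrank_range_add_finrank_ker τ
    rw [hτ] at h1
    have h2 := hv.fintype_card_le_finrank
    rw [Fintype.card_fin] at h2
    omega
  have heq : finrank k A = finrank k H := by omega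
  have hbij : Function.Bijective P.flip := by
    refine ⟨hinj', ?_⟩
    refine (LinearMap.injective_iff_surjective_of_finrank_eq_finrank ?_).mp hinj'
    rw [Subspace.dual_finrank_eq, heq]
  exact LinearMap.flip_bijective_iff₁.mp hbij

end LinearAlgebra

open Fermat.Agent.S55.H70

section Base

variable {p : ℕ} [Fact p.Prime] {S : Finset Nat.Primes}

/-- (small leaf) The base modules `F_L = 𝔽_p[G_ℚ / G_L]` are admissible. -/
def BaseAdmStatement (p : ℕ) [Fact p.Prime] (S : Finset Nat.Primes) : Prop :=
  ∀ L : IntermediateField ℚ (AlgebraicClosure ℚ), IsLevelField p S L → IsAdm p S (baseRep p L)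

/-- (C0, small leaf) The image `loc0 N` of the local `H⁰`'s is finite-dimensional. -/
def Loc0Fin (pkg : RPackage p S) : Prop :=
  ∀ N : Rep.{0, 0, 0} (ZMod p) GQ, IsAdm p S N → FiniteDimensional (ZMod p) (pkg.loc0 N)

/-- (C9b, **EX**) On the image of the local `H⁰`'s the pairing of the base module has trivial
right kernel: every sum-zero vector of local invariants at the places of `L` above `S` is
realised by a class of `H²(G_S(L), μ_p)`. -/
def ExStatement (pkg : RPackage p S) : Prop :=
  ∀ L : IntermediateField ℚ (AlgebraicClosure ℚ), IsLevelField p S L →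
    ∀ y ∈ pkg.loc0 (D p (baseRep p L)), (∀ x, pkg.pairing (baseRep p L) x y = 0) → y = 0

/-- (C0 + C2, **GO-UP**) Every class `y ∈ H¹_c(F_L')` lands in `loc0` over a larger level field
`L'`: there are maps `u : H²(F_{L'}) → H²(F_L)` and `w : H¹_c(F_L') → H¹_c(F_{L'}')` (induced by
`F_{L'} ↠ F_L`), adjoint for the pairings, with `w` injective (left exactness of `H¹_c`) and
`w y ∈ loc0` (the 1-cocycle of `y` is a homomorphism on `G_L`, and dies on the fixing subgroup of
the normal closure of its kernel field). -/
def GoUp (pkg : RPackage p S) : Prop :=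
  ∀ L : IntermediateField ℚ (AlgebraicClosure ℚ), IsLevelField p S L →
    ∀ y : pkg.Hc1 (D p (baseRep p L)),
      ∃ L' : IntermediateField ℚ (AlgebraicClosure ℚ), IsLevelField p S L' ∧
      ∃ (u : continuousH2S S (baseRep p L') →ₗ[ZMod p] continuousH2S S (baseRep p L))
        (w : pkg.Hc1 (D p (baseRep p L)) →ₗ[ZMod p] pkg.Hc1 (D p (baseRep p L'))),
        Function.Injective w ∧
        (∀ x' y', pkg.pairing (baseRep p L) (u x') y' = pkg.pairing (baseRep p L') x' (w y')) ∧
        w y ∈ pkg.loc0 (D p (baseRep p L'))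

/-- (soft half of the base case) `H¹_c(F_L') → H²(F_L)^∨` is injective. -/
def BaseInj (pkg : RPackage p S) : Prop :=
  ∀ L : IntermediateField ℚ (AlgebraicClosure ℚ), IsLevelField p S L →
    ∀ y : pkg.Hc1 (D p (baseRep p L)), (∀ x, pkg.pairing (baseRep p L) x y = 0) → y = 0

/-- (C9b, **HASSE**) `dim sha₂ S F_L ≤ c L`. -/
def HasseStatement (p : ℕ) [Fact p.Prime] (S : Finset Nat.Primes)
    (c : IntermediateField ℚ (AlgebraicClosure ℚ) → ℕ) : Prop :=
  ∀ L : IntermediateField ℚ (AlgebraicClosure ℚ), IsLevelField p S L →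
    FiniteDimensional (ZMod p) (sha₂ S (baseRep p L)) ∧
      finrank (ZMod p) (sha₂ S (baseRep p L)) ≤ c L

/-- (C9a, **COUNT**) `sha₁ S F_L'` contains `c L` linearly independent classes. -/
def CountStatement (p : ℕ) [Fact p.Prime] (S : Finset Nat.Primes)
    (c : IntermediateField ℚ (AlgebraicClosure ℚ) → ℕ) : Prop :=
  ∀ L : IntermediateField ℚ (AlgebraicClosure ℚ), IsLevelField p S L →
    ∃ v : Fin (c L) → sha₁ S (D p (baseRep p L)), LinearIndependent (ZMod p) v

/-- **BaseInj from EX and GO-UP.** -/
theorem baseInj_of_goUp (pkg : RPackage p S) (hex : ExStatement pkg) (hup : GoUp pkg) :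
    BaseInj pkg := by
  intro L hL y hy
  obtain ⟨L', hL', u, w, hw, hadj, hmem⟩ := hup L hL y
  have h0 : w y = 0 := hex L' hL' (w y) hmem fun x' => by
    rw [← hadj]
    exact hy (u x')
  exact hw (by rw [h0, map_zero])

/-- **The base case of Route R from the count.** -/
theorem baseCase_of_count (pkg : RPackage p S) (hDA : DualAdmStatement p S)
    (hbr : pkg.Bridge) (hlc : pkg.LocalCriterion)
    (hadm : BaseAdmStatement p S) (hfin : Loc0Fin pkg) (hinj : BaseInj pkg)
    (c : IntermediateField ℚ (AlgebraicClosure ℚ) → ℕ)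
    (hH : HasseStatement p S c) (hC : CountStatement p S c) :
    pkg.BaseCase := by
  intro L hL
  have hF : IsAdm p S (baseRep p L) := hadm L hL
  have hF' : IsAdm p S (D p (baseRep p L)) := hDA _ hF
  obtain ⟨hb1, hb2⟩ := hbr _ hF'
  haveI : FiniteDimensional (ZMod p) (pkg.loc0 (D p (baseRep p L))) := hfin _ hF'
  obtain ⟨hfd2, hle⟩ := hH L hL
  haveI : FiniteDimensional (ZMod p) (sha₂ S (baseRep p L)) := hfd2
  obtain ⟨v, hv⟩ := hC L hL
  -- transport the independent family to `range (toH1)`
  have hv' : ∃ v' : Fin (c L) → LinearMap.range (pkg.toH1 (D p (baseRep p L))),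
      LinearIndependent (ZMod p) v' := by
    rw [← hb2]
    exact ⟨v, hv⟩
  obtain ⟨v', hv'⟩ := hv'
  exact bijective_of_count (k := ZMod p) (pkg.pairing (baseRep p L))
    (pkg.loc0 (D p (baseRep p L))) (sha₂ S (baseRep p L)) (hlc _ hF) (c L) hle
    (pkg.toH1 (D p (baseRep p L))) hb1 v' hv' (hinj L hL)

/-- **C9a, formal layer**: the base case from EX, GO-UP, HASSE and COUNT. -/
theorem baseCase_of_leaves (pkg : RPackage p S) (hDA : DualAdmStatement p S)
    (hbr : pkg.Bridge) (hlc : pkg.LocalCriterion)
    (hadm : BaseAdmStatement p S) (hfin : Loc0Fin pkg)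
    (hex : ExStatement pkg) (hup : GoUp pkg)
    (c : IntermediateField ℚ (AlgebraicClosure ℚ) → ℕ)
    (hH : HasseStatement p S c) (hC : CountStatement p S c) :
    pkg.BaseCase :=
  baseCase_of_count pkg hDA hbr hlc hadm hfin (baseInj_of_goUp pkg hex hup) c hH hC

end Base

end Fermat.Agent.S55.H87
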