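/-
S55 / Program C, package C9a (helper87): the abstract counting step of HASSE.

`Y ⊆ δ(A)` for an additive map `δ : A → M` into an `𝔽_p`-space, `A` a torsion abelian group whose
`p`-torsion `A[p]` injects into a finite set with at most `p ^ c` elements.  Then `Y` is
finite-dimensional of dimension `≤ c`.

Application: `A = H¹(G_S(L), E_S)`, `δ` the connecting map of the Kummer sequence,
`Y = sha²(G_S(L), μ_p)` (K4 of `H70.KummerChaseStatement`), and
`A[p] ↪ V_T / E_T · Lˣᵖ` (the group whose order is `p ^ cNum p S L`).
-/
import Mathlib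

set_option autoImplicit false

open Module

namespace Fermat.Agent.S55.H87

section HasseCount

variable {p : ℕ}

/-- For a finite abelian group `B`, the image of a homomorphism killing `p B` has at most
`#B[p]` elements. -/
theorem natCard_range_le_of_finite {B M : Type*} [AddCommGroup B] [Finite B] [AddCommGroup M]
    (ψ : B →+ M) (hψ : ∀ b : B, ψ (p • b) = 0) :
    Nat.card ψ.range ≤ Nat.card (nsmulAddMonoidHom p : B →+ B).ker := by
  set φ : B →+ B := nsmulAddMonoidHom p with hφ
  have h1 : Nat.card φ.ker * Nat.card φ.range = Nat.card B := by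
    rw [← AddSubgroup.index_ker]
    exact AddSubgroup.card_mul_index _
  have h2 : Nat.card ψ.ker * Nat.card ψ.range = Nat.card B := by
    rw [← AddSubgroup.index_ker]
    exact AddSubgroup.card_mul_index _
  have h3 : φ.range ≤ ψ.ker := by
    rintro _ ⟨b, rfl⟩
    exact hψ b
  have h4 : Nat.card φ.range ≤ Nat.card ψ.ker := AddSubgroup.card_le_of_le h3
  have h5 : 0 < Nat.card ψ.ker := Nat.card_pos
  have h6 : Nat.card ψ.range * Nat.card ψ.ker ≤ Nat.card φ.ker * Nat.card ψ.ker := by
    calc Nat.card ψ.range * Nat.card ψ.ker = Nat.card B := by rw [mul_comm]; exact h2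
      _ = Nat.card φ.ker * Nat.card φ.range := h1.symm
      _ ≤ Nat.card φ.ker * Nat.card ψ.ker := Nat.mul_le_mul_left _ h4
  exact Nat.le_of_mul_le_mul_right h6 h5

variable [Fact p.Prime]

/-- **The counting step of HASSE.** -/
theorem finrank_le_of_torsion {A M W : Type*} [AddCommGroup A] [AddCommGroup M]
    [Module (ZMod p) M] (δ : A →+ M) (Y : Submodule (ZMod p) M)
    (hY : ∀ y ∈ Y, ∃ a, δ a = y) (htors : ∀ a : A, ∃ n : ℕ, 0 < n ∧ n • a = 0)
    [Finite W] (ι : {a : A // p • a = 0} → W) (hι : Function.Injective ι)
    (c : ℕ) (hW : Nat.card W ≤ p ^ c) :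
    FiniteDimensional (ZMod p) Y ∧ finrank (ZMod p) Y ≤ c := by
  classical
  have hp : p.Prime := Fact.out
  haveI : Finite {a : A // p • a = 0} := Finite.of_injective ι hι
  have hAp : Nat.card {a : A // p • a = 0} ≤ p ^ c :=
    (Nat.card_le_card_of_injective ι hι).trans hW
  choose lift hlift using fun y : Y => hY y y.2
  have key : ∀ s : Finset Y, s.card ≤ p ^ c := by
    intro s
    let B : AddSubgroup A := AddSubgroup.closure ((s.image lift : Finset A) : Set A)
    haveI : AddGroup.FG B := (AddGroup.fg_iff_addSubgroup_fg B).mpr ⟨s.image lift, rfl⟩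
    haveI : Finite B := AddCommGroup.finite_of_fg_isAddTorsion B (fun b => by
      obtain ⟨n, hn, h⟩ := htors (b : A)
      exact isOfFinAddOrder_iff_nsmul_eq_zero.mpr ⟨n, hn, Subtype.ext (by simpa using h)⟩)
    let ψ : B →+ M := δ.comp B.subtype
    have hψ : ∀ b : B, ψ (p • b) = 0 := by
      intro b
      rw [map_nsmul, ← Nat.cast_smul_eq_nsmul (ZMod p), ZMod.natCast_self, zero_smul]
    have h1 := natCard_range_le_of_finite (p := p) ψ hψ
    have h2 : Nat.card (nsmulAddMonoidHom p : B →+ B).ker ≤
        Nat.card {a : A // p • a = 0} := by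
      refine Nat.card_le_card_of_injective
        (fun b => ⟨((b : B) : A), ?_⟩) ?_
      · have hb : (nsmulAddMonoidHom p : B →+ B) (b : B) = 0 := b.2
        have h' : p • (b : B) = 0 := hb
        show p • (((b : B) : A)) = 0
        rw [← AddSubgroup.coe_nsmul, h', AddSubgroup.coe_zero]
      · intro b b' h
        have := congrArg (fun x : {a : A // p • a = 0} => (x : A)) h
        exact Subtype.ext (Subtype.ext this)
    have h3 : s.card ≤ Nat.card ψ.range := by
      have hmem : ∀ y : {y // y ∈ s}, ((y : Y) : M) ∈ ψ.range := by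
        rintro ⟨y, hy⟩
        refine ⟨⟨lift y, AddSubgroup.subset_closure
          (Finset.mem_coe.mpr (Finset.mem_image_of_mem lift hy))⟩, ?_⟩
        exact hlift y
      have hinj : Function.Injective (fun y : {y // y ∈ s} => (⟨((y : Y) : M), hmem y⟩ : ψ.range)) := by
        intro y y' h
        have := congrArg (fun x : ψ.range => (x : M)) h
        exact Subtype.ext (Subtype.ext this)
      haveI : Finite ψ.range := Finite.of_surjective ψ.rangeRestrict ψ.rangeRestrict_surjective
      have := Nat.card_le_card_of_injective _ hinj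
      simpa using this
    omega
  have : Finite Y := by
    by_contra hinf
    rw [not_finite_iff_infinite] at hinf
    obtain ⟨s, hs⟩ := Infinite.exists_subset_card_eq Y (p ^ c + 1)
    have := key s
    omega
  have hfd : FiniteDimensional (ZMod p) Y := Module.Finite.of_finite
  refine ⟨hfd, ?_⟩
  have hcard : Nat.card Y ≤ p ^ c := by
    let _ := Fintype.ofFinite Y
    have := key Finset.univ
    rwa [Finset.card_univ, ← Nat.card_eq_fintype_card] at this
  rw [Module.natCard_eq_pow_finrank (K := ZMod p), Nat.card_zmod] at hcard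
  exact (Nat.pow_le_pow_iff_right hp.one_lt).mp hcard

end HasseCount

end Fermat.Agent.S55.H87
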