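/-
S55 / Program C, package C9a (helper87): the FIELD FORM of the base module, and the two leaves
`ExStatement`, `HasseStatement` of `BaseChain` from class field theory over the level field `L`.

The leaves `ExStatement pkg` (EX) and `HasseStatement p S c` (HASSE) are statements about the
frozen objects `continuousH2S S (baseRep p L)`, `sha₂`, `pkg.loc0`, `pkg.pairing`.  Class field
theory (package C9b) speaks about `H²(G_S(L), μ_p)` and the local invariants at the places of `L`
above `S`.  The bridge between the two ("semi-local Shapiro in degree 2 with invariants") is the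
structure `FieldForm`:

* `H2L`  (`= H²(G_S(L), μ_p)`), `VL` (the places of `L` above `S`), `invL w : H2L → 𝔽_p`;
* `sh : continuousH2S S (baseRep p L) ≃ H2L` (Shapiro; bijective);
* `sha₂` goes to classes all of whose invariants vanish;
* `e : 𝔽_p^VL ↠ loc0 (F_L')` (Mackey: `⊕_q H⁰(G_q, F_L') = 𝔽_p^VL`), killing the constants, with
  `⟨x, e t⟩ = Σ_w t_w inv_w (sh x)` (formula (C) of the pairing + `inv_q ∘ cores = inv_w`).

Then  EX  ⇐  (S1b) existence of classes with prescribed sum-zero invariants over `L`,
      HASSE ⇐ (S1c) classes without invariants come from a torsion group `A` (`= H¹(G_S(L), E_S)`)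
              whose `p`-torsion injects into a set with at most `p ^ c L` elements.
-/
import Fermat.Agent.S55.H87.BaseChain
import Fermat.Agent.S55.H87.HasseCount

set_option autoImplicit false

open CategoryTheory Module groupCohomology ExtCitation

namespace Fermat.Agent.S55.H87

open Fermat.Agent.S55.H70

section FieldForm

variable {p : ℕ} [Fact p.Prime] {S : Finset Nat.Primes}

/-- The field form of the base module `F_L = 𝔽_p[G_ℚ / G_L]` (see the file header). -/
structure FieldForm (pkg : RPackage p S) (L : IntermediateField ℚ (AlgebraicClosure ℚ)) where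
  /-- `H²(G_S(L), μ_p)` -/
  H2L : Type
  /-- its group structure -/
  instH2L : AddCommGroup H2L
  /-- the places of `L` above `S` -/
  VL : Type
  /-- finitely many -/
  instVL : Fintype VL
  /-- the local invariants -/
  invL : VL → H2L →+ ZMod p
  /-- Shapiro -/
  sh : continuousH2S S (baseRep p L) →+ H2L
  /-- the parametrisation of `loc0 (F_L')` -/
  e : (VL → ZMod p) →ₗ[ZMod p] pkg.Hc1 (D p (baseRep p L))
  sh_bijective : Function.Bijective sh
  inv_sh_of_mem_sha₂ : ∀ x ∈ sha₂ S (baseRep p L), ∀ w, invL w (sh x) = 0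
  exists_e_eq : ∀ y ∈ pkg.loc0 (D p (baseRep p L)), ∃ t, e t = y
  e_const : ∀ a : ZMod p, e (fun _ => a) = 0
  pairing_e : ∀ x t, pkg.pairing (baseRep p L) x (e t) = ∑ w, t w * invL w (sh x)

attribute [instance] FieldForm.instH2L FieldForm.instVL

/-- (C9b over `L`, **(S1b)**) Existence of classes with prescribed sum-zero invariants. -/
def FieldForm.Existence {pkg : RPackage p S} {L : IntermediateField ℚ (AlgebraicClosure ℚ)}
    (ff : FieldForm pkg L) : Prop :=
  ∀ s : ff.VL → ZMod p, ∑ w, s w = 0 → ∃ x : ff.H2L, ∀ w, ff.invL w x = s w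

/-- (C9b over `L`, **(S1c)**) The classes all of whose invariants vanish are images of a torsion
group whose `p`-torsion injects into a finite set with at most `p ^ c` elements. -/
def FieldForm.Hasse {pkg : RPackage p S} {L : IntermediateField ℚ (AlgebraicClosure ℚ)}
    (ff : FieldForm pkg L) (c : ℕ) : Prop :=
  ∃ (A : Type) (_ : AddCommGroup A) (δ : A →+ ff.H2L),
    (∀ x : ff.H2L, (∀ w, ff.invL w x = 0) → ∃ a, δ a = x) ∧
    (∀ a : A, ∃ n : ℕ, 0 < n ∧ n • a = 0) ∧
    ∃ (W : Type) (_ : Finite W) (ι : {a : A // p • a = 0} → W),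
      Function.Injective ι ∧ Nat.card W ≤ p ^ c

/-- **EX from the field form.** -/
theorem exStatement_of_fieldForm (pkg : RPackage p S)
    (h : ∀ L : IntermediateField ℚ (AlgebraicClosure ℚ), IsLevelField p S L →
      ∃ ff : FieldForm pkg L, ff.Existence) : ExStatement pkg := by
  classical
  intro L hL y hy hperp
  obtain ⟨ff, hex⟩ := h L hL
  obtain ⟨t, rfl⟩ := ff.exists_e_eq y hy
  -- `t` is orthogonal to all sum-zero vectors
  have hts : ∀ s : ff.VL → ZMod p, ∑ w, s w = 0 → ∑ w, t w * s w = 0 := by
    intro s hs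
    obtain ⟨x', hx'⟩ := hex s hs
    obtain ⟨x, rfl⟩ := ff.sh_bijective.2 x'
    have h1 := hperp x
    rw [ff.pairing_e] at h1
    rw [← h1]
    exact Finset.sum_congr rfl fun w _ => by rw [hx' w]
  -- hence constant
  have hconst : ∀ w₁ w₂ : ff.VL, t w₁ = t w₂ := by
    intro w₁ w₂
    by_cases h12 : w₁ = w₂
    · rw [h12]
    have h1 := hts (fun w => (if w = w₁ then 1 else 0) - (if w = w₂ then 1 else 0)) (by
      rw [Finset.sum_sub_distrib]
      simp)
    simp only [mul_sub, Finset.sum_sub_distrib, mul_ite, mul_one, mul_zero,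
      Finset.sum_ite_eq', Finset.mem_univ, if_true] at h1
    exact sub_eq_zero.mp h1
  by_cases hne : Nonempty ff.VL
  · obtain ⟨w₀⟩ := hne
    have ht : t = fun _ => t w₀ := funext fun w => hconst w w₀
    rw [ht]
    exact ff.e_const (t w₀)
  · have ht : t = fun _ => 0 := funext fun w => (hne ⟨w⟩).elim
    rw [ht]
    exact ff.e_const 0

/-- **HASSE from the field form.** -/
theorem hasseStatement_of_fieldForm (pkg : RPackage p S)
    (c : IntermediateField ℚ (AlgebraicClosure ℚ) → ℕ)
    (h : ∀ L : IntermediateField ℚ (AlgebraicClosure ℚ), IsLevelField p S L →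
      ∃ ff : FieldForm pkg L, ff.Hasse (c L)) : HasseStatement p S c := by
  intro L hL
  obtain ⟨ff, A, _, δ, hδ, htors, W, _, ι, hι, hW⟩ := h L hL
  let shE : continuousH2S S (baseRep p L) ≃+ ff.H2L := AddEquiv.ofBijective ff.sh ff.sh_bijective
  refine finrank_le_of_torsion (p := p) (shE.symm.toAddMonoidHom.comp δ)
    (sha₂ S (baseRep p L)) ?_ htors ι hι (c L) hW
  intro y hy
  obtain ⟨a, ha⟩ := hδ (ff.sh y) (ff.inv_sh_of_mem_sha₂ y hy)
  refine ⟨a, ?_⟩
  show shE.symm (δ a) = y
  rw [ha]
  exact shE.symm_apply_apply y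

end FieldForm

end Fermat.Agent.S55.H87
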