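/-
S55 / Program C, package C9a (helper87): SUB-LEAVES of the local leaf `IsoLocalStatement`
(`IsoSpec.lean`), in the vocabulary of C0 (`H49`: level data, `Hlc`), C2 (`H62.lcPairing`)
and C4 (`H26`: `mu χ`, `LocalInjStatement`).

* `LocalH1NondegLeaf` (**ISO-ND**, abstract, formal): local duality in bidegree (1,1) is
  LEFT-NONDEGENERATE for every smooth finite module, as a formal consequence of the local
  injectivity (L) `H²(G, K) ↪ Hom_G(K, k(χ))^∨` of C4 and `inv ≠ 0`.
  Proof: `u = [c] ≠ 0` in `H¹(A)`; `E = A ⊕ k` with `g (a, t) = (g a + t c(g), t)` is a non-split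
  extension of `k` by `A`; dually `0 → k(χ) → E' → A' → 0`.  Every `G`-map `f : E' → k(χ)` is
  evaluation at a `G`-invariant vector of `E`, which lies in `A` (else `c` is a coboundary), so
  `f` kills `k(χ)`; by (L) for `E'` the map `H²(k(χ)) → H²(E')` is zero, hence
  `δ' : H¹(A') → H²(k(χ))` is onto; and `δ' [w] = -[c ∪ w]`
  (`d w̃ (g,h) (a,t) = - t · (g w(h)) (c(g))` for the lift `w̃(g) = w(g) ∘ pr_A`).
* `IsoDimLeaf` (**ISO-DIM**): `dim H¹(ℚ_q, F_L') ≤ 2 · #{w ∣ q} + [q = p] · [L : ℚ]`.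
  Proof: Mackey `Res_q F_L' = ⊕_{orbits O} Fun(O, 𝔽_p(χ))`; Shapiro in degree 1 (injectivity only)
  `H¹(G_q, Fun(G_q/H, 𝔽_p)) ↪ Hom_lc(H, 𝔽_p)`; Kummer theory (`H26.HilbertDimStatement`) and the
  local power index (`H67.index_pow_emb_of_ne`, `index_pow_emb_self`):
  `dim Hom_lc(H, 𝔽_p) ≤ 2 + [q = p] · [E : ℚ_q]`, `E` the fixed field of `H`; `[E_O : ℚ_q] = #O`,
  `Σ_O #O = [L : ℚ]`; and `OrbitCountLeaf`.
* `OrbitCountLeaf` (**ORB**): the local Galois group at `q` has at most `#{w ∣ q}` orbits on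
  `G_ℚ / G_L`.
-/
import Fermat.Agent.S55.H26.LocalInvSpec
import Fermat.Agent.S55.H62.CupLC
import Fermat.Agent.S55.H70.Chain
import Fermat.Agent.S55.H87.CountDefs

set_option autoImplicit false

open CategoryTheory Module groupCohomology ExtCitation

namespace Fermat.Agent.S55.H87

open Fermat.Agent.S55.H49 Fermat.Agent.S55.H26 Fermat.Agent.S55.H62 Fermat.Agent.S55.H70

section Abstract

variable {G : Type} [Group G] {k : Type} [Field k]

/-- The evaluation pairing `A × A' → k(χ)`, `(a, f) ↦ f a`, `A' = A.dualTwist χ`. -/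
noncomputable def evTwist (A : Rep.{0} k G) (χ : G →* kˣ) :
    A →ₗ[k] (A.dualTwist χ) →ₗ[k] (mu χ) :=
  Module.Dual.eval k A

theorem evTwist_apply (A : Rep.{0} k G) (χ : G →* kˣ) (a : A) (f : Module.Dual k A) :
    evTwist A χ a f = f a := rfl

theorem evTwist_equivariant (A : Rep.{0} k G) (χ : G →* kˣ) :
    IsEquivariantPairing (evTwist A χ) := by
  intro g a f
  show ((A.dualTwist χ).ρ g f) (A.ρ g a) = (mu χ).ρ g (f a)
  rw [Rep.dualTwist_ρ_apply, mu_ρ_apply]
  show (χ g : k) • f (A.ρ g⁻¹ (A.ρ g a)) = (χ g : k) * f a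
  rw [← Module.End.mul_apply, ← map_mul, inv_mul_cancel, map_one, Module.End.one_apply]
  rfl

/-- The cup product `H¹(A) × H¹(A') → H²(k(χ))` on level-constant cohomology. -/
noncomputable def cupTwist (D : LevelDatum G) (A : Rep.{0} k G) (χ : G →* kˣ) :
    Hlc D A 1 →ₗ[k] Hlc D (A.dualTwist χ) 1 →ₗ[k] Hlc D (mu χ) 2 :=
  (lcPairing D (evTwist A χ) (evTwist_equivariant A χ)).H 1 1 2 rfl

/-- **Leaf (ISO-ND)**, abstract (Mathlib + C0 + C2): local duality in bidegree (1,1) is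
left-nondegenerate, formally from (L) and `inv ≠ 0`.  See the file header for the proof. -/
def LocalH1NondegLeaf : Prop :=
  ∀ (G : Type) [Group G] (k : Type) [Field k] (D : LevelDatum G), D.HasNormalLevels →
    ∀ (χ : G →* kˣ) (inv : Hlc D (mu χ) 2 →ₗ[k] k),
      LocalInjStatement D χ inv → (∃ z : Hlc D (mu χ) 2, inv z ≠ 0) → D.Smooth (mu χ) →
      ∀ A : Rep.{0} k G, D.Smooth A → Module.Finite k A → ∀ u : Hlc D A 1, u ≠ 0 →
        ∃ v : Hlc D (A.dualTwist χ) 1, inv (cupTwist D A χ u v) ≠ 0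

end Abstract

section Concrete

variable (p : ℕ) [Fact p.Prime] (S : Finset Nat.Primes)

/-- **Leaf (ISO-DIM)**: `dim H¹(ℚ_q, F_L') ≤ 2 · #{w ∣ q} + [q = p] · [L : ℚ]` for a level field
`L` and `q ∈ S`. -/
def IsoDimLeaf : Prop :=
  ∀ L : IntermediateField ℚ (AlgebraicClosure ℚ), IsLevelField p S L → ∀ [NumberField L],
    ∀ q : ↥S, FiniteDimensional (ZMod p) (Hq S q (D p (baseRep p L)) 1) ∧
      finrank (ZMod p) (Hq S q (D p (baseRep p L)) 1) ≤
        2 * (placesOver L {q.1}).card + (if q.1 = pPrime p then finrank ℚ L else 0)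

/-- **Leaf (ORB)**: the number of orbits of the local Galois group at `q` on `G_ℚ / G_L` is at
most the number of primes of `L` above `q`: there is a map from `G_ℚ / G_L` to the primes of `L`
above `q` whose fibres are single orbits. -/
def OrbitCountLeaf : Prop :=
  ∀ (q : Nat.Primes) (L : IntermediateField ℚ (AlgebraicClosure ℚ)), IsGalois ℚ L →
    ∀ [NumberField L],
    ∃ f : (H70.GQ ⧸ L.fixingSubgroup) → ↥(placesOver L {q}),
      ∀ x y, f x = f y → ∃ σ : primeLocalGaloisGroup q, primeLocalToGlobal q σ • x = y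

end Concrete

end Fermat.Agent.S55.H87
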