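/-
S55 / Program C, package C9a (helper87): the small leaf `BaseAdm` — the base modules
`F_L = 𝔽_p[G_ℚ / G_L]` of the level fields are admissible (finite-dimensional, smooth, unramified
outside `S`), and `G_L` acts trivially on them.
-/
import Fermat.Agent.S55.H87.BaseChain

set_option autoImplicit false

open CategoryTheory Module groupCohomology ExtCitation

namespace Fermat.Agent.S55.H87

open Fermat.Agent.S55.H70

local instance isAlgebraicQbar_h87 : Algebra.IsAlgebraic ℚ (AlgebraicClosure ℚ) :=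
  AlgebraicClosure.isAlgebraic ℚ
local instance isAlgClosureQbar_h87 : IsAlgClosure ℚ (AlgebraicClosure ℚ) :=
  ⟨inferInstance, inferInstance⟩
local instance isGaloisQbar_h87 : IsGalois ℚ (AlgebraicClosure ℚ) :=
  IsAlgClosure.isGalois ℚ (AlgebraicClosure ℚ)

variable {p : ℕ} [Fact p.Prime] {S : Finset Nat.Primes}

/-- The fixing subgroup of a finite Galois subextension acts trivially on `G_ℚ / G_L`. -/
theorem smul_coset_eq (L : IntermediateField ℚ (AlgebraicClosure ℚ)) (hL : IsGalois ℚ L)
    {s : GQ} (hs : s ∈ L.fixingSubgroup) (x : GQ ⧸ L.fixingSubgroup) : s • x = x := by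
  haveI : (L.fixingSubgroup).Normal :=
    @IsGalois.fixingSubgroup_normal_of_isGalois ℚ (AlgebraicClosure ℚ) _ _ _ L _ hL
  induction x using QuotientGroup.induction_on with
  | H g =>
    show ((s * g : GQ) : GQ ⧸ L.fixingSubgroup) = (g : GQ ⧸ L.fixingSubgroup)
    rw [QuotientGroup.eq]
    have h1 : (s * g)⁻¹ * g = g⁻¹ * s⁻¹ * g := by group
    rw [h1]
    exact Subgroup.Normal.conj_mem' inferInstance _ (L.fixingSubgroup.inv_mem hs) g

/-- The fixing subgroup of a finite Galois subextension acts trivially on `F_L`. -/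
theorem baseRep_ρ_eq_one (L : IntermediateField ℚ (AlgebraicClosure ℚ)) (hL : IsGalois ℚ L)
    {s : GQ} (hs : s ∈ L.fixingSubgroup) : (baseRep p L).ρ s = 1 := by
  have hid : (fun x : GQ ⧸ L.fixingSubgroup => s • x) = id := funext (smul_coset_eq L hL hs)
  show Representation.ofMulAction (ZMod p) GQ (GQ ⧸ L.fixingSubgroup) s = 1
  rw [Representation.ofMulAction_def, hid, Finsupp.lmapDomain_id]
  ext x
  simp

/-- **Leaf `BaseAdm`.** -/
theorem baseAdm : BaseAdmStatement p S := by
  rintro L ⟨hLur, hLgal, -⟩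
  haveI := hLur.1
  haveI : Finite (GQ ⧸ L.fixingSubgroup) :=
    Subgroup.quotient_finite_of_isOpen L.fixingSubgroup
      (IntermediateField.fixingSubgroup_isOpen L)
  refine ⟨?_, ?_, ?_⟩
  · show FiniteDimensional (ZMod p) (MonoidAlgebra (ZMod p) (GQ ⧸ L.fixingSubgroup))
    exact Module.Finite.equiv (MonoidAlgebra.coeffLinearEquiv (ZMod p)).symm
  · intro m
    refine ⟨L, hLur.1, fun s hs => ?_⟩
    rw [baseRep_ρ_eq_one L hLgal hs, Module.End.one_apply]
  · intro q hq A hA g hg
    exact baseRep_ρ_eq_one L hLgal (hLur.2 q hq A hA hg)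

end Fermat.Agent.S55.H87
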