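/-
S55 / Program C, package C9a (helper87): the cardinalities of the count (KU3).

For a number field `K ∋ ζ_p`, a finite set `T` of primes and `V_T = pDivGroup K T p`,
`E_T = H83.sUnit K T`, `Kˣᵖ = powGroup K p`:

* `relIndex_sup_ne_zero`      : `(V_T : E_T · Kˣᵖ)` is finite (finiteness of the class group);
* `relIndex_sup_eq_pow`       : `(V_T : E_T · Kˣᵖ) = p ^ cIdx K T p`;
* `relIndex_powGroup_pDivGroup` : `(V_T : Kˣᵖ) = p ^ (dIdx K T + cIdx K T p)` (`S`-unit theorem);
* `exists_injective_of_relIndex` : an additive map out of `V` into an `𝔽_p`-space whose kernel lies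
  in a subgroup of relative index `p ^ n` yields an injective linear map `𝔽_p^n → X`.
-/
import Mathlib
import Fermat.Agent.S55.H83.ClassNumber
import Fermat.Agent.S55.H83.SUnitCard
import Fermat.Agent.S55.H87.CountDefs

set_option autoImplicit false

open IsDedekindDomain HeightOneSpectrum NumberField Module

namespace Fermat.Agent.S55.H87

section NumberField

variable (K : Type*) [Field K] [NumberField K] (T : Finset (HeightOneSpectrum (𝓞 K))) (p : ℕ)

theorem ordv_pow (w : HeightOneSpectrum (𝓞 K)) (b : Kˣ) (n : ℕ) :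
    H83.ordv K w (b ^ n) = n * H83.ordv K w b := by
  induction n with
  | zero => simp [H83.ordv_one]
  | succ n ih =>
    rw [pow_succ, H83.ordv_mul, ih]
    push_cast
    ring

theorem sUnit_le_pDivGroup : H83.sUnit K T ≤ pDivGroup K T p := by
  intro a ha w hw
  have h := H83.ordv_sUnit_of_notMem (K := K) (S := T) ⟨a, ha⟩ hw
  rw [h]
  exact dvd_zero _

theorem powGroup_le_pDivGroup : powGroup K p ≤ pDivGroup K T p := by
  rintro _ ⟨b, rfl⟩ w _
  rw [powMonoidHom_apply, ordv_pow]
  exact dvd_mul_right _ _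

theorem sup_le_pDivGroup : H83.sUnit K T ⊔ powGroup K p ≤ pDivGroup K T p :=
  sup_le (sUnit_le_pDivGroup K T p) (powGroup_le_pDivGroup K T p)

/-- `E_T` is saturated: `Kˣᵖ ∩ E_T = E_Tᵖ`. -/
theorem powGroup_inf_sUnit (hp : p ≠ 0) :
    powGroup K p ⊓ H83.sUnit K T = (H83.sUnit K T).map (powMonoidHom p : Kˣ →* Kˣ) := by
  ext a
  constructor
  · rintro ⟨⟨b, rfl⟩, hb⟩
    refine ⟨b, ?_, rfl⟩
    intro v hv
    have hvT : v ∉ T := fun h => hv (Finset.mem_coe.mpr h)
    have h1 : H83.ordv K v (b ^ p) = 0 :=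
      H83.ordv_sUnit_of_notMem (K := K) (S := T) ⟨_, hb⟩ hvT
    rw [ordv_pow] at h1
    have h2 : H83.ordv K v b = 0 := by
      rcases mul_eq_zero.mp h1 with h | h
      · exact absurd (by exact_mod_cast h) hp
      · exact h
    exact (H83.ordv_eq_zero_iff v b).mp h2
  · rintro ⟨b, hb, rfl⟩
    exact ⟨⟨b, rfl⟩, (H83.sUnit K T).pow_mem hb p⟩

/-- Only finitely many primes have nonzero valuation at a given element of `Kˣ`. -/
theorem finite_ordv_ne_zero (a : Kˣ) :
    {w : HeightOneSpectrum (𝓞 K) | H83.ordv K w a ≠ 0}.Finite := by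
  have h := (HeightOneSpectrum.Support.finite (𝓞 K) (a : K)).union
    (HeightOneSpectrum.Support.finite (𝓞 K) ((a⁻¹ : Kˣ) : K))
  refine h.subset ?_
  intro w hw
  have hne : w.valuation K (a : K) ≠ 1 := fun h1 => hw ((H83.ordv_eq_zero_iff w a).mpr h1)
  have hpos : 0 < w.valuation K (a : K) := zero_lt_iff.2 ((Valuation.ne_zero_iff _).2 a.ne_zero)
  rcases lt_or_gt_of_ne hne with h | h
  · right
    change 1 < w.valuation K ((a⁻¹ : Kˣ) : K)
    rw [Units.val_inv_eq_inv_val, map_inv₀]
    exact (one_lt_inv₀ hpos).2 h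
  · left
    exact h

/-- `(V_T : E_T · Kˣᵖ)` is finite. -/
theorem relIndex_sup_ne_zero (hp : p ≠ 0) :
    (H83.sUnit K T ⊔ powGroup K p).relIndex (pDivGroup K T p) ≠ 0 := by
  classical
  haveI : NeZero p := ⟨hp⟩
  obtain ⟨S₀, hS₀⟩ := H83.exists_finset_forall_exists_ordv_eq (R := 𝓞 K) (K := K)
  set H := H83.sUnit K T ⊔ powGroup K p with hH
  set E'' := H83.sUnit K (T ∪ S₀) with hE''
  set Q := E''.map (powMonoidHom p : Kˣ →* Kˣ) with hQ
  have h1 : Q.relIndex E'' ≠ 0 := by
    rw [hQ, H83.relIndex_map_powMonoidHom, H83.index_powMonoidHom_range_sUnit_gcd]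
    exact mul_ne_zero (Nat.gcd_ne_zero_right hp) (pow_ne_zero _ hp)
  have hQH : Q ≤ H := by
    rintro _ ⟨b, _, rfl⟩
    exact Subgroup.mem_sup_right ⟨b, rfl⟩
  have h2 : H.relIndex E'' ≠ 0 := fun h0 =>
    h1 (Nat.eq_zero_of_zero_dvd (h0 ▸ Subgroup.relIndex_dvd_of_le_left E'' hQH))
  have h3 : pDivGroup K T p ≤ H ⊔ E'' := by
    intro a ha
    let n : HeightOneSpectrum (𝓞 K) → ℤ := fun w => if w ∈ T then 0 else H83.ordv K w a / p
    have hn : (Function.support n).Finite := by
      refine (finite_ordv_ne_zero K a).subset ?_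
      intro w hw h0
      apply hw
      show (if w ∈ T then 0 else H83.ordv K w a / p) = 0
      split_ifs
      · rfl
      · rw [h0]
        simp
    obtain ⟨c, hc⟩ := hS₀ n hn
    have hmem : a * (c ^ p)⁻¹ ∈ E'' := by
      intro w hw
      have hwT : w ∉ T := fun h => hw (by simp [h])
      have hwS : w ∉ S₀ := fun h => hw (by simp [h])
      rw [← H83.ordv_eq_zero_iff, H83.ordv_mul, H83.ordv_inv, ordv_pow, hc w hwS]
      show H83.ordv K w a + -((p : ℤ) * (if w ∈ T then 0 else H83.ordv K w a / p)) = 0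
      rw [if_neg hwT]
      obtain ⟨k, hk⟩ := ha w hwT
      rw [hk, Int.mul_ediv_cancel_left _ (by exact_mod_cast hp)]
      ring
    have ha' : a = (c ^ p) * (a * (c ^ p)⁻¹) := by
      rw [mul_comm a, mul_inv_cancel_left]
    rw [ha']
    exact Subgroup.mul_mem _ (Subgroup.mem_sup_left (Subgroup.mem_sup_right ⟨c, rfl⟩))
      (Subgroup.mem_sup_right hmem)
  have h4 : H.relIndex (H ⊔ E'') ≠ 0 := by
    rw [Subgroup.relIndex_sup_left]
    exact h2
  exact fun h0 => h4 (Subgroup.relIndex_eq_zero_of_le_right h3 h0)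

/-- `(V_T : E_T · Kˣᵖ) = p ^ cIdx K T p`. -/
theorem relIndex_sup_eq_pow (hp : p.Prime) :
    (H83.sUnit K T ⊔ powGroup K p).relIndex (pDivGroup K T p) = p ^ cIdx K T p := by
  haveI : Fact p.Prime := ⟨hp⟩
  set H := (H83.sUnit K T ⊔ powGroup K p).subgroupOf (pDivGroup K T p) with hH
  have hfin : H.index ≠ 0 := relIndex_sup_ne_zero K T p hp.ne_zero
  haveI : H.FiniteIndex := ⟨hfin⟩
  have hpg : IsPGroup p (pDivGroup K T p ⧸ H) := by
    intro x
    refine ⟨1, ?_⟩
    induction x using QuotientGroup.induction_on with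
    | H a =>
      rw [pow_one, ← QuotientGroup.mk_pow, QuotientGroup.eq_one_iff]
      exact Subgroup.mem_subgroupOf.mpr (Subgroup.mem_sup_right ⟨(a : Kˣ), by simp⟩)
  obtain ⟨n, hn⟩ := IsPGroup.exists_card_eq hpg
  have hidx : H.index = p ^ n := by rw [Subgroup.index, hn]
  have hrel : (H83.sUnit K T ⊔ powGroup K p).relIndex (pDivGroup K T p) = p ^ n := hidx
  rw [cIdx, hrel, Nat.log_pow hp.one_lt]

/-- **(KU3)** `(V_T : Kˣᵖ) = p ^ (d + c)` for a number field containing the `p`-th roots of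
unity. -/
theorem relIndex_powGroup_pDivGroup (hp : p.Prime) {ζ : K} (hζ : IsPrimitiveRoot ζ p) :
    (powGroup K p).relIndex (pDivGroup K T p) = p ^ (dIdx K T + cIdx K T p) := by
  haveI : NeZero p := ⟨hp.ne_zero⟩
  have h1 := Subgroup.relIndex_mul_relIndex (powGroup K p) (H83.sUnit K T ⊔ powGroup K p)
    (pDivGroup K T p) le_sup_right (sup_le_pDivGroup K T p)
  have h2 : (powGroup K p).relIndex (H83.sUnit K T ⊔ powGroup K p) = p ^ dIdx K T := by
    rw [Subgroup.relIndex_sup_right, ← Subgroup.inf_relIndex_right,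
      powGroup_inf_sUnit K T p hp.ne_zero, H83.relIndex_map_powMonoidHom_sUnit K T hζ]
    rfl
  rw [← h1, h2, relIndex_sup_eq_pow K T p hp, pow_add]

end NumberField

section Packaging

variable {p : ℕ} [Fact p.Prime]

/-- **Packaging.**  An additive map `κ` out of a subgroup `V` of a commutative group into an
`𝔽_p`-space, whose kernel lies in a subgroup `P` with `(V : P ∩ V) = p ^ n`, yields an injective
linear map `𝔽_p^n → X` (with image in the range of `κ`). -/
theorem exists_injective_of_relIndex {G X : Type*} [CommGroup G] [AddCommGroup X]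
    [Module (ZMod p) X] (V P : Subgroup G) (κ : Additive V →+ X)
    (hκ : ∀ a : Additive V, κ a = 0 → ((Additive.toMul a : V) : G) ∈ P)
    (n : ℕ) (hn : P.relIndex V = p ^ n) :
    ∃ f : (Fin n → ZMod p) →ₗ[ZMod p] X, Function.Injective f := by
  have hp : p.Prime := Fact.out
  -- `p ^ n` divides the cardinality of the range of `κ`
  have hle : κ.ker ≤ Subgroup.toAddSubgroup (P.subgroupOf V) := by
    intro a ha
    exact Subgroup.mem_subgroupOf.mpr (hκ a (AddMonoidHom.mem_ker.mp ha))
  have hdvd : p ^ n ∣ Nat.card κ.range := by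
    rw [← AddSubgroup.index_ker, ← hn]
    have := AddSubgroup.index_dvd_of_le hle
    rwa [Subgroup.index_toAddSubgroup] at this
  let R : Submodule (ZMod p) X := AddSubgroup.toZModSubmodule p κ.range
  have hcard : Nat.card R = Nat.card κ.range := rfl
  have hrank : (n : Cardinal) ≤ Module.rank (ZMod p) R := by
    by_cases hfin : Module.Finite (ZMod p) R
    · have h1 : Nat.card R = p ^ finrank (ZMod p) R := by
        rw [Module.natCard_eq_pow_finrank (K := ZMod p), Nat.card_zmod]
      rw [← hcard, h1] at hdvd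
      have h2 : n ≤ finrank (ZMod p) R := (Nat.pow_dvd_pow_iff_le_right hp.one_lt).mp hdvd
      rw [← Module.finrank_eq_rank]
      exact_mod_cast h2
    · have h1 : ¬ Module.rank (ZMod p) R < Cardinal.aleph0 := fun h =>
        hfin (Module.rank_lt_aleph0_iff.mp h)
      exact (Cardinal.natCast_lt_aleph0).le.trans (not_lt.mp h1)
  obtain ⟨v, hv⟩ := exists_linearIndependent_of_le_rank hrank
  have hv' : LinearIndependent (ZMod p) (fun i => ((v i : R) : X)) :=
    hv.map' R.subtype (Submodule.ker_subtype R)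
  exact ⟨Fintype.linearCombination (ZMod p) (fun i => ((v i : R) : X)),
    hv'.fintypeLinearCombination_injective⟩

end Packaging

end Fermat.Agent.S55.H87
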