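/-
S55 / Program C (helper87): the formal top of "Route R".

* `finrank_perp_add` : for a perfect pairing `P : H × A → k` and a subspace `I ≤ A`,
  `dim I^⊥ + dim I = dim A`.
* `finrank_perp_eq_finrank_range` : with `I = ker π`, `dim (ker π)^⊥ = dim (range π)`.
* `nondegenerate_left_of_presentation`, `nondegenerate_right_of_presentation` : the one-degree
  dévissage in pairing form (a pairing on the cokernel/kernel of a presentation is nondegenerate
  as soon as the pairings on the two terms of the presentation are).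
* `s55_of_perfect` : the frozen statement S55 from
  (G) a perfect pairing `P : H²_S(M) × A → 𝔽_p` with `A` finite-dimensional
      (in the application `A = H¹_c(G_S, M')`),
  (π) a map `π : A → H¹(M')` with range `sha₁ S M'`, and
  (L)+(C) `x ∈ sha₂ S M ↔ x ⊥ ker π` (in the application `ker π` is the image of the local `H⁰`'s,
      and this is the local injectivity `H²(G_v, M) ↪ H⁰(G_v, M')^∨` plus compatibility).
-/
import Fermat.Agent.S55.H12.Top

set_option autoImplicit false

open Module

noncomputable section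

namespace Fermat.Agent.S55.H87

section LinearAlgebra

variable {k : Type*} [Field k]

/-- The orthogonal of a subspace `I ≤ A` under a pairing `P : H × A → k`. -/
def perp {H A : Type*} [AddCommGroup H] [Module k H] [AddCommGroup A] [Module k A]
    (P : H →ₗ[k] A →ₗ[k] k) (I : Submodule k A) : Submodule k H where
  carrier := {x | ∀ a ∈ I, P x a = 0}
  add_mem' := fun {x y} hx hy a ha => by
    rw [map_add, LinearMap.add_apply, hx a ha, hy a ha, add_zero]
  zero_mem' := fun a _ => by rw [map_zero, LinearMap.zero_apply]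
  smul_mem' := fun c x hx a ha => by
    rw [map_smul, LinearMap.smul_apply, hx a ha, smul_zero]

theorem mem_perp {H A : Type*} [AddCommGroup H] [Module k H] [AddCommGroup A] [Module k A]
    (P : H →ₗ[k] A →ₗ[k] k) (I : Submodule k A) (x : H) :
    x ∈ perp P I ↔ ∀ a ∈ I, P x a = 0 := Iff.rfl

/-- A left-nondegenerate pairing with a finite-dimensional right factor has a finite-dimensional
left factor. -/
theorem finiteDimensional_of_left_nondegenerate {H A : Type*} [AddCommGroup H] [Module k H]
    [AddCommGroup A] [Module k A] [FiniteDimensional k A]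
    (P : H →ₗ[k] A →ₗ[k] k) (hP1 : ∀ x, (∀ a, P x a = 0) → x = 0) :
    FiniteDimensional k H := by
  have hinj : Function.Injective P := by
    rw [← LinearMap.ker_eq_bot, LinearMap.ker_eq_bot']
    intro x hx
    exact hP1 x fun a => by rw [hx, LinearMap.zero_apply]
  exact FiniteDimensional.of_injective P hinj

/-- For a perfect pairing, `dim I^⊥ + dim I = dim A`. -/
theorem finrank_perp_add {H A : Type*} [AddCommGroup H] [Module k H]
    [AddCommGroup A] [Module k A] [FiniteDimensional k A]
    (P : H →ₗ[k] A →ₗ[k] k) (hP1 : ∀ x, (∀ a, P x a = 0) → x = 0)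
    (hP2 : ∀ a, (∀ x, P x a = 0) → a = 0) (I : Submodule k A) :
    finrank k (perp P I) + finrank k I = finrank k A := by
  have : FiniteDimensional k H := finiteDimensional_of_left_nondegenerate P hP1
  have hinj : Function.Injective P := by
    rw [← LinearMap.ker_eq_bot, LinearMap.ker_eq_bot']
    intro x hx
    exact hP1 x fun a => by rw [hx, LinearMap.zero_apply]
  have hinj' : Function.Injective P.flip := by
    rw [← LinearMap.ker_eq_bot, LinearMap.ker_eq_bot']
    intro a ha
    refine hP2 a fun x => ?_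
    have := congrArg (fun f : H →ₗ[k] k => f x) ha
    simpa using this
  -- `dim H = dim A`
  have hle1 : finrank k H ≤ finrank k A := by
    have := LinearMap.finrank_le_finrank_of_injective hinj
    rwa [Subspace.dual_finrank_eq] at this
  have hle2 : finrank k A ≤ finrank k H := by
    have := LinearMap.finrank_le_finrank_of_injective hinj'
    rwa [Subspace.dual_finrank_eq] at this
  have hHA : finrank k H = finrank k A := le_antisymm hle1 hle2
  -- `P` is surjective onto the dual of `A`
  have hsurj : Function.Surjective P := by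
    refine (LinearMap.injective_iff_surjective_of_finrank_eq_finrank ?_).mp hinj
    rw [Subspace.dual_finrank_eq, hHA]
  -- the restriction map `H → Dual I`
  let r : H →ₗ[k] Module.Dual k I := (Submodule.dualRestrict I) ∘ₗ P
  have hr : Function.Surjective r := by
    intro φ
    obtain ⟨ψ, hψ⟩ := Subspace.dualRestrict_surjective (W := I) φ
    obtain ⟨x, hx⟩ := hsurj ψ
    exact ⟨x, by simp only [r, LinearMap.coe_comp, Function.comp_apply, hx, hψ]⟩
  have hker : LinearMap.ker r = perp P I := by
    ext x
    rw [LinearMap.mem_ker, mem_perp]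
    constructor
    · intro hx a ha
      have := congrArg (fun f : Module.Dual k I => f ⟨a, ha⟩) hx
      simpa [r, Submodule.dualRestrict_apply] using this
    · intro hx
      ext ⟨a, ha⟩
      simpa [r, Submodule.dualRestrict_apply] using hx a ha
  have h1 := LinearMap.finrank_range_add_finrank_ker r
  rw [LinearMap.range_eq_top.mpr hr, finrank_top, Subspace.dual_finrank_eq, hker] at h1
  omega

/-- For a perfect pairing `P : H × A → k` and a map `π` out of `A`: the orthogonal of `ker π`
has the dimension of `range π`. -/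
theorem finrank_perp_eq_finrank_range {H A B : Type*} [AddCommGroup H] [Module k H]
    [AddCommGroup A] [Module k A] [FiniteDimensional k A] [AddCommGroup B] [Module k B]
    (P : H →ₗ[k] A →ₗ[k] k) (hP1 : ∀ x, (∀ a, P x a = 0) → x = 0)
    (hP2 : ∀ a, (∀ x, P x a = 0) → a = 0) (π : A →ₗ[k] B) :
    finrank k (perp P (LinearMap.ker π)) = finrank k (LinearMap.range π) := by
  have h1 := finrank_perp_add P hP1 hP2 (LinearMap.ker π)
  have h2 := LinearMap.finrank_range_add_finrank_ker π
  omega

/-- **One-degree dévissage, left kernel.**  Rows `H₁ --u--> H₀ --v--> H → 0` and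
`0 → A --a--> A₀ --b--> A₁` (only `v` surjective, `v ∘ u = 0` and `ker b ≤ range a` are used),
pairings `P₁`, `P₀`, `P` with `P (v x) f = P₀ x (a f)` and `P₀ (u y) g = P₁ y (b g)`.
If `P₀` has trivial left kernel and every functional on `A₁` is of the form `P₁ y`
(e.g. `A₁` finite-dimensional and `P₁` with trivial right kernel), then `P` has trivial left
kernel. -/
theorem nondegenerate_left_of_presentation
    {H₁ H₀ H A A₀ A₁ : Type*} [AddCommGroup H₁] [Module k H₁] [AddCommGroup H₀] [Module k H₀]
    [AddCommGroup H] [Module k H] [AddCommGroup A] [Module k A] [AddCommGroup A₀] [Module k A₀]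
    [AddCommGroup A₁] [Module k A₁]
    (u : H₁ →ₗ[k] H₀) (v : H₀ →ₗ[k] H) (a : A →ₗ[k] A₀) (b : A₀ →ₗ[k] A₁)
    (P₁ : H₁ →ₗ[k] A₁ →ₗ[k] k) (P₀ : H₀ →ₗ[k] A₀ →ₗ[k] k) (P : H →ₗ[k] A →ₗ[k] k)
    (hv : Function.Surjective v) (hvu : ∀ y, v (u y) = 0)
    (hab : ∀ g, b g = 0 → ∃ f, a f = g)
    (hadj : ∀ x f, P (v x) f = P₀ x (a f)) (hadj₁ : ∀ y g, P₀ (u y) g = P₁ y (b g))
    (hP₀ : ∀ x, (∀ g, P₀ x g = 0) → x = 0)
    (hP₁ : ∀ φ : A₁ →ₗ[k] k, ∃ y, P₁ y = φ) :
    ∀ x, (∀ f, P x f = 0) → x = 0 := by
  intro x hx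
  obtain ⟨x₀, rfl⟩ := hv x
  -- the functional `P₀ x₀` vanishes on `ker b`
  have hvan : LinearMap.ker b ≤ LinearMap.ker (P₀ x₀) := by
    intro g hg
    obtain ⟨f, rfl⟩ := hab g hg
    rw [LinearMap.mem_ker, ← hadj]
    exact hx f
  -- so it factors through `b`
  obtain ⟨φ, hφ⟩ : ∃ φ : A₁ →ₗ[k] k, φ ∘ₗ b = P₀ x₀ := by
    -- first on the range of `b`, then extend
    let ψ : LinearMap.range b →ₗ[k] k :=
      (LinearMap.ker b).liftQ (P₀ x₀) hvan ∘ₗ (b.quotKerEquivRange).symm.toLinearMap
    obtain ⟨φ, hφ⟩ := LinearMap.exists_extend ψ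
    refine ⟨φ, ?_⟩
    ext g
    have h1 : φ (b g) = ψ ⟨b g, LinearMap.mem_range_self b g⟩ := by
      have := congrArg (fun F : LinearMap.range b →ₗ[k] k => F ⟨b g, LinearMap.mem_range_self b g⟩) hφ
      simpa using this
    have h2 : (b.quotKerEquivRange).symm ⟨b g, LinearMap.mem_range_self b g⟩ =
        Submodule.Quotient.mk g := by
      rw [LinearEquiv.symm_apply_eq]
      rfl
    simp only [LinearMap.coe_comp, Function.comp_apply, h1, ψ, LinearEquiv.coe_coe, h2,
      Submodule.liftQ_apply]
  obtain ⟨y, hy⟩ := hP₁ φ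
  have hx₀ : x₀ = u y := by
    have : x₀ - u y = 0 := by
      refine hP₀ _ fun g => ?_
      rw [map_sub, LinearMap.sub_apply, hadj₁, hy, ← hφ]
      simp
    exact sub_eq_zero.mp this
  rw [hx₀, hvu]

/-- **One-degree dévissage, right kernel.**  If `a : A → A₀` is injective, `P (v x) f = P₀ x (a f)`
and `P₀` has trivial right kernel, then `P` has trivial right kernel. -/
theorem nondegenerate_right_of_presentation
    {H₀ H A A₀ : Type*} [AddCommGroup H₀] [Module k H₀]
    [AddCommGroup H] [Module k H] [AddCommGroup A] [Module k A] [AddCommGroup A₀] [Module k A₀]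
    (v : H₀ →ₗ[k] H) (a : A →ₗ[k] A₀)
    (P₀ : H₀ →ₗ[k] A₀ →ₗ[k] k) (P : H →ₗ[k] A →ₗ[k] k)
    (ha : Function.Injective a)
    (hadj : ∀ x f, P (v x) f = P₀ x (a f))
    (hP₀ : ∀ g, (∀ x, P₀ x g = 0) → g = 0) :
    ∀ f, (∀ x, P x f = 0) → f = 0 := by
  intro f hf
  apply ha
  rw [map_zero]
  refine hP₀ _ fun x => ?_
  rw [← hadj]
  exact hf _

/-- A pairing with trivial right kernel and finite-dimensional right factor represents every
functional on the right factor. -/
theorem exists_eq_of_right_nondegenerate {H A : Type*} [AddCommGroup H] [Module k H]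
    [AddCommGroup A] [Module k A] [FiniteDimensional k A]
    (P : H →ₗ[k] A →ₗ[k] k) (hP2 : ∀ a, (∀ x, P x a = 0) → a = 0) :
    ∀ φ : A →ₗ[k] k, ∃ y, P y = φ := by
  -- the range of `P` is a subspace of the dual with trivial annihilator
  intro φ
  have hcoann : (LinearMap.range P).dualCoannihilator = ⊥ := by
    rw [eq_bot_iff]
    intro a ha
    rw [Submodule.mem_dualCoannihilator] at ha
    rw [Submodule.mem_bot]
    exact hP2 a fun x => ha (P x) (LinearMap.mem_range_self P x)
  have htop : LinearMap.range P = ⊤ := by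
    have h := Subspace.dualCoannihilator_dualAnnihilator_eq (W := LinearMap.range P)
    rw [hcoann, Submodule.dualAnnihilator_bot] at h
    exact h.symm
  have : φ ∈ LinearMap.range P := by rw [htop]; trivial
  exact this

end LinearAlgebra

section S55

open CategoryTheory groupCohomology ExtCitation

/-- **The frozen statement S55 from Route R.**  `A` plays the role of `H¹_c(G_S, M')`,
`π : A → H¹(M')` forgets the local trivialisations (so `range π = sha₁` and `ker π` is the image
of the local `H⁰`'s), `P` is the global pairing `H²(G_S, M) × H¹_c(G_S, M') → 𝔽_p`, perfect by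
(G), and `hsha2` is local injectivity (L) + compatibility (C). -/
theorem s55_of_perfect {p : ℕ} [Fact p.Prime] (S : Finset Nat.Primes)
    (M : Rep (ZMod p) (AlgebraicClosure ℚ ≃ₐ[ℚ] AlgebraicClosure ℚ))
    {A : Type*} [AddCommGroup A] [Module (ZMod p) A] [FiniteDimensional (ZMod p) A]
    (P : continuousH2S S M →ₗ[ZMod p] A →ₗ[ZMod p] ZMod p)
    (hP1 : ∀ x, (∀ a, P x a = 0) → x = 0) (hP2 : ∀ a, (∀ x, P x a = 0) → a = 0)
    (π : A →ₗ[ZMod p] H1 (M.dualTwist (cycloChar p)))
    (hπ : LinearMap.range π = sha₁ S (M.dualTwist (cycloChar p)))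
    (hsha2 : ∀ x, x ∈ sha₂ S M ↔ ∀ a ∈ LinearMap.ker π, P x a = 0) :
    ∃ B : sha₁ S (M.dualTwist (cycloChar p)) →ₗ[ZMod p] sha₂ S M →ₗ[ZMod p] ZMod p,
      (∀ y, (∀ x, B y x = 0) → y = 0) ∧ (∀ x, (∀ y, B y x = 0) → x = 0) := by
  have hH : FiniteDimensional (ZMod p) (continuousH2S S M) :=
    finiteDimensional_of_left_nondegenerate P hP1
  have hperp : sha₂ S M = perp P (LinearMap.ker π) := by
    ext x
    rw [hsha2, mem_perp]
  have hfd1 : FiniteDimensional (ZMod p) (sha₁ S (M.dualTwist (cycloChar p))) := by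
    rw [← hπ]
    infer_instance
  have hfd2 : FiniteDimensional (ZMod p) (sha₂ S M) := inferInstance
  refine Fermat.Agent.S55.H12.s55_of_finrank_eq S M hfd1 hfd2 ?_
  rw [hperp, finrank_perp_eq_finrank_range P hP1 hP2 π, hπ]

end S55

end Fermat.Agent.S55.H87
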