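/-
S55 / Program C, package C9a (helper87): the COUNT `dim sha₁ S F_L' ≥ c L`, formal layer.

`CountStatement c` (of `BaseChain`) is reduced to two statements about the level-`S`-constant
classes `continuousH1S S N`, `N = F_L' = D p (baseRep p L)` (`= H¹(G_S(L), μ_p)` by Shapiro):

* `KummerStatement c d`   : it contains `d L + c L` linearly independent classes
  (Kummer classes of `V_S(L) = {a ∈ L^× : p ∣ ord_w a for w ∤ S} / L^{×p}`, of dimension
  `(r₂ + s) + dim Cl_S(L)[p]`: `S`-unit theorem + UNR-KUMMER + Shapiro in degree 1);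
* `IsotropyStatement d`   : there is a finite-dimensional space `Λ` (`= ⊕_{w ∣ S} H¹(L_w, μ_p)`)
  of dimension `≤ 2 * d L` with a nondegenerate form (sum of the local Hilbert symbols) and a
  localisation map `lam : continuousH1S S N → Λ` with isotropic image (reciprocity for
  `χ_a ∪ χ_b`) whose kernel lies in `sha₁ S N`.

Then the kernel of `lam` contains `c L` independent classes: `dim (range lam) ≤ d L`.
-/
import Fermat.Agent.S55.H87.BaseChain
import Fermat.Agent.S55.H87.RouteTop

set_option autoImplicit false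

open CategoryTheory Module groupCohomology ExtCitation

namespace Fermat.Agent.S55.H87

section LinearAlgebra

variable {k : Type*} [Field k]

/-- An isotropic subspace of a space with a nondegenerate form has at most half the dimension. -/
theorem two_mul_finrank_le_of_isotropic {Λ : Type*} [AddCommGroup Λ] [Module k Λ]
    [FiniteDimensional k Λ] (B : Λ →ₗ[k] Λ →ₗ[k] k) (hB : ∀ x, (∀ y, B x y = 0) → x = 0)
    (R : Submodule k Λ) (hR : ∀ x ∈ R, ∀ y ∈ R, B x y = 0) :
    2 * finrank k R ≤ finrank k Λ := by
  -- `B` is perfect: injective `Λ → Λ^∨` between spaces of the same dimension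
  have hinj : Function.Injective B := by
    rw [← LinearMap.ker_eq_bot, LinearMap.ker_eq_bot']
    intro x hx
    exact hB x fun y => by rw [hx, LinearMap.zero_apply]
  have hsurj : Function.Surjective B := by
    refine (LinearMap.injective_iff_surjective_of_finrank_eq_finrank ?_).mp hinj
    rw [Subspace.dual_finrank_eq]
  have hB2 : ∀ y, (∀ x, B x y = 0) → y = 0 := by
    intro y hy
    rw [← Module.forall_dual_apply_eq_zero_iff k y]
    intro φ
    obtain ⟨x, rfl⟩ := hsurj φ
    exact hy x
  have h1 := finrank_perp_add B hB hB2 R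
  have h2 : R ≤ perp B R := fun x hx => (mem_perp B R x).mpr fun y hy => hR x hx y hy
  have h3 := Submodule.finrank_mono h2
  omega

/-- **The isotropy count.**  `lam : X → Λ` with isotropic image in a nondegenerate space of
dimension `≤ 2 d`, and `d + c` independent elements of `X`: the kernel of `lam` contains `c`
independent elements. -/
theorem exists_linearIndependent_ker_of_isotropic {X Λ : Type*} [AddCommGroup X] [Module k X]
    [AddCommGroup Λ] [Module k Λ] [FiniteDimensional k Λ]
    (B : Λ →ₗ[k] Λ →ₗ[k] k) (hB : ∀ x, (∀ y, B x y = 0) → x = 0)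
    (lam : X →ₗ[k] Λ) (hiso : ∀ x y, B (lam x) (lam y) = 0)
    (c d : ℕ) (hd : finrank k Λ ≤ 2 * d)
    (κ : (Fin (d + c) → k) →ₗ[k] X) (hκ : Function.Injective κ) :
    ∃ v : Fin c → LinearMap.ker lam, LinearIndependent k v := by
  have hR : 2 * finrank k (LinearMap.range lam) ≤ finrank k Λ := by
    refine two_mul_finrank_le_of_isotropic B hB _ ?_
    rintro _ ⟨x, rfl⟩ _ ⟨y, rfl⟩
    exact hiso x y
  -- the composite `lam ∘ κ` has rank `≤ d`, so its kernel has dimension `≥ c`
  let f : (Fin (d + c) → k) →ₗ[k] Λ := lam ∘ₗ κ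
  have hf : finrank k (LinearMap.range f) ≤ d := by
    have h1 : LinearMap.range f ≤ LinearMap.range lam := LinearMap.range_comp_le_range κ lam
    have h2 := Submodule.finrank_mono h1
    omega
  have hker : c ≤ finrank k (LinearMap.ker f) := by
    have h1 := LinearMap.finrank_range_add_finrank_ker f
    rw [Module.finrank_fin_fun] at h1
    omega
  -- `c` independent vectors in `ker f`, pushed into `ker lam` by `κ`
  let b := Module.finBasis k (LinearMap.ker f)
  let g : LinearMap.ker f →ₗ[k] LinearMap.ker lam :=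
    (κ ∘ₗ (LinearMap.ker f).subtype).codRestrict (LinearMap.ker lam) fun x => by
      rw [LinearMap.mem_ker]
      exact x.2
  have hg : Function.Injective g := by
    intro x y hxy
    have h1 := congrArg (fun z : LinearMap.ker lam => (z : X)) hxy
    exact Subtype.ext (hκ h1)
  refine ⟨fun i => g (b (Fin.castLE hker i)), ?_⟩
  have h1 : LinearIndependent k (fun i : Fin c => b (Fin.castLE hker i)) :=
    b.linearIndependent.comp _ (Fin.castLE_injective hker)
  exact h1.map' g (LinearMap.ker_eq_bot.mpr hg)

end LinearAlgebra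

open Fermat.Agent.S55.H70

section Count

variable (p : ℕ) [Fact p.Prime] (S : Finset Nat.Primes)

/-- (C9a, **KUMMER**) `H¹(G_S(L), μ_p)`, in the form `continuousH1S S (F_L')`, contains
`d L + c L` linearly independent classes. -/
def KummerStatement (c d : IntermediateField ℚ (AlgebraicClosure ℚ) → ℕ) : Prop :=
  ∀ L : IntermediateField ℚ (AlgebraicClosure ℚ), IsLevelField p S L →
    ∃ κ : (Fin (d L + c L) → ZMod p) →ₗ[ZMod p] ↥(continuousH1S S (D p (baseRep p L))),
      Function.Injective κ

/-- (C9a, **ISOTROPY**) The localisation of `H¹(G_S(L), μ_p)` at the places above `S` has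
isotropic image in a nondegenerate space of dimension `≤ 2 * d L`, and its kernel is `sha₁`. -/
def IsotropyStatement (d : IntermediateField ℚ (AlgebraicClosure ℚ) → ℕ) : Prop :=
  ∀ L : IntermediateField ℚ (AlgebraicClosure ℚ), IsLevelField p S L →
    ∃ (Λ : Type) (_ : AddCommGroup Λ) (_ : Module (ZMod p) Λ) (_ : FiniteDimensional (ZMod p) Λ)
      (B : Λ →ₗ[ZMod p] Λ →ₗ[ZMod p] ZMod p)
      (lam : ↥(continuousH1S S (D p (baseRep p L))) →ₗ[ZMod p] Λ),
      (∀ x, (∀ y, B x y = 0) → x = 0) ∧ finrank (ZMod p) Λ ≤ 2 * d L ∧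
      (∀ x y, B (lam x) (lam y) = 0) ∧
      ∀ x, lam x = 0 → (x : groupCohomology.H1 (D p (baseRep p L))) ∈ sha₁ S (D p (baseRep p L))

variable {p S}

/-- **COUNT from KUMMER and ISOTROPY.** -/
theorem count_of_kummer_isotropy (c d : IntermediateField ℚ (AlgebraicClosure ℚ) → ℕ)
    (hK : KummerStatement p S c d) (hI : IsotropyStatement p S d) : CountStatement p S c := by
  intro L hL
  obtain ⟨κ, hκ⟩ := hK L hL
  obtain ⟨Λ, _, _, _, B, lam, hB, hd, hiso, hker⟩ := hI L hL
  obtain ⟨v, hv⟩ := exists_linearIndependent_ker_of_isotropic B hB lam hiso (c L) (d L) hd κ hκ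
  -- the inclusion `ker lam → sha₁`
  let ι : LinearMap.ker lam →ₗ[ZMod p] sha₁ S (D p (baseRep p L)) :=
    ((continuousH1S S (D p (baseRep p L))).subtype ∘ₗ (LinearMap.ker lam).subtype).codRestrict
      (sha₁ S (D p (baseRep p L))) fun x => hker x.1 x.2
  have hι : Function.Injective ι := by
    intro x y hxy
    have h1 := congrArg (fun z : sha₁ S (D p (baseRep p L)) =>
      (z : groupCohomology.H1 (D p (baseRep p L)))) hxy
    exact Subtype.ext (Subtype.ext h1)
  exact ⟨fun i => ι (v i), hv.map' ι (LinearMap.ker_eq_bot.mpr hι)⟩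

/-- **C9a, both layers**: the base case of Route R from EX, GO-UP, HASSE, KUMMER, ISOTROPY. -/
theorem baseCase_of_kummer_isotropy (pkg : RPackage p S) (hDA : DualAdmStatement p S)
    (hbr : pkg.Bridge) (hlc : pkg.LocalCriterion)
    (hadm : BaseAdmStatement p S) (hfin : Loc0Fin pkg)
    (hex : ExStatement pkg) (hup : GoUp pkg)
    (c d : IntermediateField ℚ (AlgebraicClosure ℚ) → ℕ)
    (hH : HasseStatement p S c) (hK : KummerStatement p S c d) (hI : IsotropyStatement p S d) :
    pkg.BaseCase :=
  baseCase_of_leaves pkg hDA hbr hlc hadm hfin hex hup c hH (count_of_kummer_isotropy c d hK hI)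

end Count

end Fermat.Agent.S55.H87
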