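/-
S55 / Program C, package C9a (helper87): KUMMER from the Kummer homomorphism.

`KummerStatement p S (cNum p S) (dNum S)` (`d + c` independent classes in `H¹(G_S(L), μ_p)`,
in the form `continuousH1S S (F_L')`) follows from ONE statement, `KummerHomStatement`:
for every level field `L` there is an additive map
  `κ : V_S(L) → continuousH1S S (D p (baseRep p L))`
(the Kummer map in module form) whose kernel consists of `p`-th powers of `Lˣ`.
The count `(V_S(L) : Lˣᵖ) = p ^ (d + c)` is `CountCard.relIndex_powGroup_pDivGroup`.
-/
import Fermat.Agent.S55.H87.CountCard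
import Fermat.Agent.S55.H87.CountChain

set_option autoImplicit false

open CategoryTheory Module groupCohomology ExtCitation NumberField

namespace Fermat.Agent.S55.H87

open Fermat.Agent.S55.H70

section KummerAsm

variable (p : ℕ) [Fact p.Prime] (S : Finset Nat.Primes)

/-- (C9a, **KU1 + KU2**) The Kummer homomorphism in module form: an additive map from
`V_S(L) = {a ∈ Lˣ : p ∣ ord_w a for all w ∤ S}` to the level-`S`-constant classes of
`H¹(G_ℚ, F_L')`, whose kernel consists of `p`-th powers. -/
def KummerHomStatement : Prop :=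
  ∀ L : IntermediateField ℚ (AlgebraicClosure ℚ), IsLevelField p S L → ∀ [NumberField L],
    ∃ κ : Additive ↥(pDivGroup L (placesOver L S) p) →+
        ↥(continuousH1S S (D p (baseRep p L))),
      ∀ a, κ a = 0 →
        ((Additive.toMul a : ↥(pDivGroup L (placesOver L S) p)) : Lˣ) ∈ powGroup L p

variable {p S}

/-- A level field contains a primitive `p`-th root of unity. -/
theorem exists_primitiveRoot_of_isLevelField (L : IntermediateField ℚ (AlgebraicClosure ℚ))
    (hL : IsLevelField p S L) : ∃ ζ : L, IsPrimitiveRoot ζ p := by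
  have hp : p.Prime := Fact.out
  haveI : NeZero p := ⟨hp.ne_zero⟩
  obtain ⟨ζ, hζ⟩ := HasEnoughRootsOfUnity.exists_primitiveRoot (AlgebraicClosure ℚ) p
  have hmem : ζ ∈ L := hL.2.2 ζ hζ.pow_eq_one
  refine ⟨⟨ζ, hmem⟩, ?_⟩
  exact IsPrimitiveRoot.of_map_of_injective (f := L.val) hζ L.val.injective

/-- **KUMMER from the Kummer homomorphism.** -/
theorem kummerStatement_of_hom (h : KummerHomStatement p S) :
    KummerStatement p S (cNum p S) (dNum S) := by
  have hp : p.Prime := Fact.out
  intro L hL
  haveI : NumberField L := numberField_of_finiteDimensional L hL.1.1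
  obtain ⟨κ, hκ⟩ := h L hL
  obtain ⟨ζ, hζ⟩ := exists_primitiveRoot_of_isLevelField L hL
  have hn := relIndex_powGroup_pDivGroup L (placesOver L S) p hp hζ
  rw [cNum_eq, dNum_eq]
  exact exists_injective_of_relIndex (pDivGroup L (placesOver L S) p) (powGroup L p) κ hκ _ hn

end KummerAsm

end Fermat.Agent.S55.H87
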