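/-
S55 / Program C (helper87): the leaf `DualAdm` of the top chain `H70/Chain.lean`.

The Tate dual `X' = X.dualTwist (cycloChar p)` of an admissible module (finite-dimensional,
smooth, unramified outside `S`) is admissible, as soon as `p ∈ S`.

The statement is the unfolded form of `Fermat.Agent.S55.H70.DualAdmStatement p S`
(`IsAdm p S X → IsAdm p S (D p X)` for all `X`), so that `dualAdm S hpS` is a term of that type;
this file does not import the chain file.
-/
import Fermat.Prelude.Def_GroupCohomology_ContinuousUnramified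
import Fermat.Agent.S29.H81.CycloFrob

set_option autoImplicit false

open CategoryTheory Module groupCohomology ExtCitation

namespace Fermat.Agent.S55.H87

variable {p : ℕ} [Fact p.Prime]

local notation "GQ" => (AlgebraicClosure ℚ ≃ₐ[ℚ] AlgebraicClosure ℚ)

/-- A smooth finite-dimensional representation is trivial on the fixing subgroup of one finite
level. -/
theorem exists_level_trivial (X : Rep.{0, 0, 0} (ZMod p) GQ) [FiniteDimensional (ZMod p) X]
    (hsm : ∀ m : X, ∃ F : IntermediateField ℚ (AlgebraicClosure ℚ), FiniteDimensional ℚ F ∧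
      ∀ s ∈ F.fixingSubgroup, X.ρ s m = m) :
    ∃ F : IntermediateField ℚ (AlgebraicClosure ℚ), FiniteDimensional ℚ F ∧
      ∀ s ∈ F.fixingSubgroup, X.ρ s = 1 := by
  classical
  let b := Module.finBasis (ZMod p) X
  choose F hFfd hF using fun i => hsm (b i)
  haveI : ∀ i, FiniteDimensional ℚ (F i) := hFfd
  refine ⟨⨆ i, F i, IntermediateField.finiteDimensional_iSup_of_finite, fun s hs => ?_⟩
  apply b.ext
  intro i
  rw [Module.End.one_apply]
  exact hF i s (IntermediateField.fixingSubgroup_antitone (le_iSup F i) hs)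

/-- **Leaf `DualAdm`**: the Tate dual of an admissible module is admissible (`p ∈ S`). -/
theorem dualAdm (S : Finset Nat.Primes) (hpS : pPrime p ∈ S) :
    ∀ X : Rep.{0, 0, 0} (ZMod p) GQ,
      (FiniteDimensional (ZMod p) X ∧
        (∀ m : X, ∃ F : IntermediateField ℚ (AlgebraicClosure ℚ), FiniteDimensional ℚ F ∧
          ∀ s ∈ F.fixingSubgroup, X.ρ s m = m) ∧
        (∀ q : Nat.Primes, q ∉ S → ∀ A : ValuationSubring (AlgebraicClosure ℚ),
          A.LiesOverPrime (q : ℕ) → ∀ g ∈ A.inertiaSubgroupIn ℚ, X.ρ g = 1)) →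
      (FiniteDimensional (ZMod p) (X.dualTwist (cycloChar p)) ∧
        (∀ m : X.dualTwist (cycloChar p), ∃ F : IntermediateField ℚ (AlgebraicClosure ℚ),
          FiniteDimensional ℚ F ∧
          ∀ s ∈ F.fixingSubgroup, (X.dualTwist (cycloChar p)).ρ s m = m) ∧
        (∀ q : Nat.Primes, q ∉ S → ∀ A : ValuationSubring (AlgebraicClosure ℚ),
          A.LiesOverPrime (q : ℕ) → ∀ g ∈ A.inertiaSubgroupIn ℚ,
            (X.dualTwist (cycloChar p)).ρ g = 1)) := by
  rintro X ⟨hfd, hsm, hur⟩
  haveI : FiniteDimensional (ZMod p) X := hfd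
  refine ⟨?_, ?_, ?_⟩
  · -- finite-dimensional: the underlying space is the dual of `X`
    show FiniteDimensional (ZMod p) (Module.Dual (ZMod p) X)
    infer_instance
  · -- smooth: a level trivialising `X` and the cyclotomic character
    intro f
    obtain ⟨F, hFfd, hF⟩ := exists_level_trivial X hsm
    obtain ⟨L, hLfd, hL⟩ := Fermat.Agent.S29.H81.cycloChar_finiteLevel p
    haveI := hFfd
    haveI := hLfd
    refine ⟨F ⊔ L, IntermediateField.finiteDimensional_sup F L, fun s hs => ?_⟩
    have hsF : s ∈ F.fixingSubgroup := IntermediateField.fixingSubgroup_antitone le_sup_left hs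
    have hsL : s ∈ L.fixingSubgroup := IntermediateField.fixingSubgroup_antitone le_sup_right hs
    have h1 : X.ρ s⁻¹ = 1 := hF _ (F.fixingSubgroup.inv_mem hsF)
    have h2 : cycloChar p s = 1 := by
      refine hL s fun x hx => ?_
      exact (IntermediateField.mem_fixingSubgroup_iff L s).mp hsL x hx
    show (X.dualTwist (cycloChar p)).ρ s f = f
    rw [Rep.dualTwist_ρ_apply, h1, h2, Units.val_one, one_smul]
    exact LinearMap.ext fun _ => rfl
  · -- unramified outside `S`
    intro q hq A hA g hg
    have hqp : (q : ℕ) ≠ p := by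
      intro h
      apply hq
      have : q = pPrime p := Subtype.ext h
      rw [this]
      exact hpS
    have h1 : X.ρ g⁻¹ = 1 := hur q hq A hA _ ((A.inertiaSubgroupIn ℚ).inv_mem hg)
    have h2 : cycloChar p g = 1 :=
      Fermat.Agent.S29.H81.cycloChar_of_mem_inertia q.2 hqp A hA hg
    apply LinearMap.ext
    intro f
    show (X.dualTwist (cycloChar p)).ρ g f = f
    rw [Rep.dualTwist_ρ_apply, h1, h2, Units.val_one, one_smul]
    exact LinearMap.ext fun _ => rfl

end Fermat.Agent.S55.H87
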