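/-
S55 / Program C, package C9a (helper87): ISOTROPY from reciprocity over `ℚ` and a LOCAL leaf.

`IsotropyStatement p S (dNum S)` (of `CountChain`) is reduced, in MODULE FORM over `ℚ` (no
cohomology of `G_L`, no places of `L` in the cohomological statements), to:

* `RecStatement R inv`  (**REC over `ℚ`**, the hypothesis of the pairing of C2):
  `Σ_{q ∈ S} inv_q (loc_q c) = 0` for `c ∈ H²(G_S, R)`, `R = 𝔽_p(χ)`;
* `IsoLocalStatement R inv` (**the local leaf**): for every level field `L`, `N = F_L'`, there is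
  a product `cup : H¹_S(N) × H¹_S(N) → H²(G_S, R)` (the cup product along the invariant form
  `N ⊗ N → 𝔽_p(χ)`, `⟨φ, ψ⟩ = Σ_{x ∈ G_ℚ/G_L} χ(x)⁻¹ φ(x) ψ(x)`) and, for every `q ∈ S`, a
  finite-dimensional space `Λ_q` (`= H¹(G_q, N) = ⊕_{w ∣ q} H¹(L_w, μ_p)`) with a left-nondegenerate
  form `B_q` (local Tate duality in bidegree (1,1) = the Hilbert symbols of the `L_w`) and a
  localisation map `lam_q : H¹_S(N) → Λ_q` with
    - `finrank Λ_q ≤ 2 · #{w ∣ q} + [q = p] · [L : ℚ]`,
    - `lam_q x = 0 ⇒ loc_q x = 0` in `H¹(G_q, N)`,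
    - `B_q (lam_q x, lam_q y) = inv_q (loc_q (cup x y))`.

The arithmetic of the dimension count (`Σ_q #{w ∣ q} ≤ #{w ∣ S}`, `[L : ℚ] ≤ 2 · #{w ∣ ∞}`) is
proved here.
-/
import Fermat.Agent.S55.H87.CountChain
import Fermat.Agent.S55.H87.CountDefs
import Fermat.Agent.S55.H43.PreludeFacts

set_option autoImplicit false

open CategoryTheory Module groupCohomology ExtCitation NumberField IsDedekindDomain

namespace Fermat.Agent.S55.H87

open Fermat.Agent.S55.H70

section Arithmetic

variable (K : Type*) [Field K] [NumberField K]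

/-- A prime of `𝓞 K` lies over at most one rational prime. -/
theorem placesOver_disjoint {q q' : Nat.Primes} (h : q ≠ q') :
    Disjoint (placesOver K {q}) (placesOver K {q'}) := by
  rw [Finset.disjoint_left]
  intro w hw hw'
  rw [mem_placesOver] at hw hw'
  obtain ⟨a, ha, hwa⟩ := hw
  obtain ⟨b, hb, hwb⟩ := hw'
  rw [Finset.mem_singleton] at ha hb
  subst ha hb
  have hcop : IsCoprime ((a : ℕ) : ℤ) ((b : ℕ) : ℤ) := by
    rw [Nat.isCoprime_iff_coprime, Nat.coprime_primes a.2 b.2]
    exact fun h' => h (Subtype.ext h')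
  obtain ⟨u, v, huv⟩ := hcop
  have h1 : ((u * ((a : ℕ) : ℤ) + v * ((b : ℕ) : ℤ) : ℤ) : 𝓞 K) ∈ w.asIdeal := by
    rw [Int.cast_add, Int.cast_mul, Int.cast_mul]
    exact Ideal.add_mem _ (Ideal.mul_mem_left _ _ hwa) (Ideal.mul_mem_left _ _ hwb)
  rw [huv, Int.cast_one] at h1
  exact w.isPrime.ne_top ((Ideal.eq_top_iff_one _).mpr h1)

theorem sum_card_placesOver_le (S : Finset Nat.Primes) :
    ∑ q ∈ S, (placesOver K {q}).card ≤ (placesOver K S).card := by
  classical
  rw [← Finset.card_biUnion (fun q _ q' _ h => placesOver_disjoint K h)]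
  refine Finset.card_le_card ?_
  intro w hw
  rw [Finset.mem_biUnion] at hw
  obtain ⟨q, hq, hw⟩ := hw
  rw [mem_placesOver] at hw ⊢
  obtain ⟨a, ha, hwa⟩ := hw
  rw [Finset.mem_singleton] at ha
  subst ha
  exact ⟨a, hq, hwa⟩

theorem finrank_le_two_mul_card_infinitePlace :
    finrank ℚ K ≤ 2 * Fintype.card (InfinitePlace K) := by
  have h1 := NumberField.InfinitePlace.card_add_two_mul_card_eq_rank K
  have h2 := NumberField.InfinitePlace.card_eq_nrRealPlaces_add_nrComplexPlaces K
  omega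

/-- The dimension count of ISOTROPY. -/
theorem sum_local_bound_le (S : Finset Nat.Primes) (a : Nat.Primes) :
    ∑ q : ↥S, (2 * (placesOver K {q.1}).card + (if q.1 = a then finrank ℚ K else 0)) ≤
      2 * dIdx K (placesOver K S) := by
  classical
  rw [Finset.sum_coe_sort S
    (fun q => 2 * (placesOver K {q}).card + (if q = a then finrank ℚ K else 0)),
    Finset.sum_add_distrib, ← Finset.mul_sum, Finset.sum_ite_eq' S a (fun _ => finrank ℚ K)]
  have h1 := sum_card_placesOver_le K S
  have h2 := finrank_le_two_mul_card_infinitePlace K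
  have h3 : (if a ∈ S then finrank ℚ K else 0) ≤ finrank ℚ K := by
    split_ifs
    · exact le_rfl
    · exact Nat.zero_le _
  rw [dIdx]
  omega

end Arithmetic

section Isotropy

variable (p : ℕ) [Fact p.Prime] (S : Finset Nat.Primes)

/-- (**REC over `ℚ`**) The sum of the local invariants of a class of `H²(G_S, R)` vanishes.
For `R = 𝔽_p(χ)` (`H62.chiRep p`) this is the hypothesis `RECStatement inv` of the pairing of
C2, i.e. (S1a) of C9b for `F = ℚ`. -/
def RecStatement (R : Rep.{0, 0, 0} (ZMod p) GQ)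
    (inv : ∀ q : ↥S, continuousH2 (primeLocalToGlobal q.1)
      (Rep.res (primeLocalToGlobal q.1) R) →ₗ[ZMod p] ZMod p) : Prop :=
  ∀ c : continuousH2S S R, ∑ q : ↥S, inv q (locRes₂S S R (primeLocalToGlobal q.1) c) = 0

/-- (C9a, **the local leaf of ISOTROPY**) See the file header. -/
def IsoLocalStatement (R : Rep.{0, 0, 0} (ZMod p) GQ)
    (inv : ∀ q : ↥S, continuousH2 (primeLocalToGlobal q.1)
      (Rep.res (primeLocalToGlobal q.1) R) →ₗ[ZMod p] ZMod p) : Prop :=
  ∀ L : IntermediateField ℚ (AlgebraicClosure ℚ), IsLevelField p S L → ∀ [NumberField L],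
    ∃ cup : ↥(continuousH1S S (D p (baseRep p L))) → ↥(continuousH1S S (D p (baseRep p L))) →
        continuousH2S S R,
      ∀ q : ↥S, ∃ (Λ : Type) (_ : AddCommGroup Λ) (_ : Module (ZMod p) Λ)
        (_ : FiniteDimensional (ZMod p) Λ) (B : Λ →ₗ[ZMod p] Λ →ₗ[ZMod p] ZMod p)
        (lam : ↥(continuousH1S S (D p (baseRep p L))) →ₗ[ZMod p] Λ),
        (∀ x, (∀ y, B x y = 0) → x = 0) ∧
        finrank (ZMod p) Λ ≤
          2 * (placesOver L {q.1}).card + (if q.1 = pPrime p then finrank ℚ L else 0) ∧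
        (∀ x, lam x = 0 →
          (locRes (extArithLoc S) (D p (baseRep p L)) (Sum.inr q)).hom
            (x : groupCohomology.H1 (D p (baseRep p L))) = 0) ∧
        ∀ x y, B (lam x) (lam y) = inv q (locRes₂S S R (primeLocalToGlobal q.1) (cup x y))

variable {p S}

/-- **ISOTROPY from REC over `ℚ` and the local leaf.** -/
theorem isotropyStatement_of_local (hp2 : p ≠ 2) (R : Rep.{0, 0, 0} (ZMod p) GQ)
    (inv : ∀ q : ↥S, continuousH2 (primeLocalToGlobal q.1)
      (Rep.res (primeLocalToGlobal q.1) R) →ₗ[ZMod p] ZMod p)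
    (hrec : RecStatement p S R inv) (hloc : IsoLocalStatement p S R inv) :
    IsotropyStatement p S (dNum S) := by
  classical
  intro L hL
  haveI : NumberField L := numberField_of_finiteDimensional L hL.1.1
  obtain ⟨cup, h⟩ := hloc L hL
  choose Λ i1 i2 i3 B lam hB hdim hker hcup using h
  letI : ∀ q, AddCommGroup (Λ q) := i1
  letI : ∀ q, Module (ZMod p) (Λ q) := i2
  haveI : ∀ q, FiniteDimensional (ZMod p) (Λ q) := i3
  -- the product space, the sum form, the product localisation
  let BB : (∀ q : ↥S, Λ q) →ₗ[ZMod p] (∀ q : ↥S, Λ q) →ₗ[ZMod p] ZMod p :=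
    ∑ q : ↥S, (B q).compl₁₂ (LinearMap.proj q) (LinearMap.proj q)
  have hBB : ∀ x y : (∀ q : ↥S, Λ q), BB x y = ∑ q : ↥S, B q (x q) (y q) := by
    intro x y
    simp only [BB, LinearMap.sum_apply, LinearMap.compl₁₂_apply, LinearMap.proj_apply]
  let LAM : ↥(continuousH1S S (D p (baseRep p L))) →ₗ[ZMod p] (∀ q : ↥S, Λ q) :=
    LinearMap.pi lam
  refine ⟨(∀ q : ↥S, Λ q), inferInstance, inferInstance, inferInstance, BB, LAM, ?_, ?_, ?_, ?_⟩
  · -- nondegeneracy
    intro x hx
    funext q
    refine hB q (x q) fun y => ?_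
    have h1 := hx (Pi.single q y)
    rw [hBB] at h1
    rw [Finset.sum_eq_single q] at h1
    · simpa using h1
    · intro q' _ hq'
      rw [Pi.single_eq_of_ne hq', map_zero]
    · intro hq
      exact absurd (Finset.mem_univ q) hq
  · -- dimension
    rw [Module.finrank_pi_fintype, dNum_eq]
    exact (Finset.sum_le_sum fun q _ => hdim q).trans (sum_local_bound_le L S (pPrime p))
  · -- isotropy
    intro x y
    rw [hBB]
    have h1 := hrec (cup x y)
    rw [← h1]
    exact Finset.sum_congr rfl fun q _ => hcup q x y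
  · -- kernel
    intro x hx
    rw [sha₁, Submodule.mem_inf]
    refine ⟨x.2, ?_⟩
    rw [LinearMap.mem_ker]
    funext v
    rcases v with u | q
    · exact H43.locRes_inl_eq_zero S hp2 _ u _
    · have h1 : lam q x = 0 := congrFun hx q
      exact hker q x h1

end Isotropy

end Fermat.Agent.S55.H87
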