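/-
S55 / Program C, package C9a (helper87): THE BASE CASE OF ROUTE R FROM ITS FINAL LEAVES.

`pkg.BaseCase` (bijectivity of `H²(G_S, F_L) → H¹_c(G_S, F_L')^∨` for all level fields `L`) from:

top-chain leaves     : `DualAdmStatement`, `pkg.Bridge`, `pkg.LocalCriterion`;
C0 leaves            : `Loc0Fin pkg`, `GoUp pkg`   (`BaseAdmStatement` is proved in `BaseAdm`);
field form (C9b + Shapiro in degree 2): for every level field `L` a `FieldForm pkg L` with
                       `Existence` (S1b) and `Hasse (cNum p S L)` (S1c);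
Kummer (C9a)         : `KummerHomStatement p S`;
isotropy (C2/C4/C9b) : `RecStatement p S R inv` (REC over `ℚ`) and `IsoLocalStatement p S R inv`.
-/
import Fermat.Agent.S55.H87.BaseAdm
import Fermat.Agent.S55.H87.FieldForm
import Fermat.Agent.S55.H87.KummerAsm
import Fermat.Agent.S55.H87.IsoSpec

set_option autoImplicit false

open CategoryTheory Module groupCohomology ExtCitation

namespace Fermat.Agent.S55.H87

open Fermat.Agent.S55.H70

section Top

variable {p : ℕ} [Fact p.Prime] {S : Finset Nat.Primes}

/-- **C9a: the base case of Route R from its final leaves.** -/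
theorem baseCase_of_final_leaves (hp2 : p ≠ 2) (pkg : RPackage p S)
    (hDA : DualAdmStatement p S) (hbr : pkg.Bridge) (hlc : pkg.LocalCriterion)
    (hfin : Loc0Fin pkg) (hup : GoUp pkg)
    (hff : ∀ L : IntermediateField ℚ (AlgebraicClosure ℚ), IsLevelField p S L →
      ∃ ff : FieldForm pkg L, ff.Existence ∧ ff.Hasse (cNum p S L))
    (hkum : KummerHomStatement p S)
    (R : Rep.{0, 0, 0} (ZMod p) GQ)
    (inv : ∀ q : ↥S, continuousH2 (primeLocalToGlobal q.1)
      (Rep.res (primeLocalToGlobal q.1) R) →ₗ[ZMod p] ZMod p)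
    (hrec : RecStatement p S R inv) (hloc : IsoLocalStatement p S R inv) :
    pkg.BaseCase := by
  have hex : ExStatement pkg := exStatement_of_fieldForm pkg fun L hL => by
    obtain ⟨ff, h1, -⟩ := hff L hL
    exact ⟨ff, h1⟩
  have hH : HasseStatement p S (cNum p S) := hasseStatement_of_fieldForm pkg (cNum p S)
    fun L hL => by
      obtain ⟨ff, -, h2⟩ := hff L hL
      exact ⟨ff, h2⟩
  exact baseCase_of_kummer_isotropy pkg hDA hbr hlc baseAdm hfin hex hup (cNum p S) (dNum S) hH
    (kummerStatement_of_hom hkum) (isotropyStatement_of_local hp2 R inv hrec hloc)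

end Top

end Fermat.Agent.S55.H87
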