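/-
S55 / Program C (helper87): THE FROZEN CONCLUSION FROM THE SEVEN REMAINING LEAVES.

Everything that is on main is plugged in: helper62's `s55_of_inv_k1` (Route R, pairing of C2),
helper70's exports `exStatement_of` / `hasseStatement_of` (C9b), helper23's `kummerStatement`
(KUMMER at the shared numbers `cNum p S`, `dNum S`), and the count of C9a
(`count_of_kummer_isotropy`, `isotropyStatement_of_local`).

The conclusion of the frozen S55 follows from:

1. `inv : H62.LocalInv p S`                       (the local invariant maps; C4),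
2. `H99.ShInjStatement 3`                         (Shapiro, injectivity in degree 3; C0),
3. `H70.ArithStatement p S T`                     (C9b, the arithmetic of `G_S(E)`; gives (K1)),
4. `H62.RECStatement p S inv`                     (reciprocity over `ℚ`),
5. `H43.LocalInjP S inv`                          (local injectivity (L); C4),
6. `∀ L, IsLevelField p S L → H70.LevelLeaves hpS pkg (cNum p S) L`   (C9b over the level fields),
7. `IsoLocalStatement p S (H62.chiRep p) inv`     (the local leaf of ISOTROPY; C9a L5).
-/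
import Fermat.Agent.S55.H87.C9aTop
import Fermat.Agent.S55.H62.RFinal
import Fermat.Agent.S55.H70.GSExports
import Fermat.Agent.S55.H23.KummerLeaf

set_option autoImplicit false

open CategoryTheory Module groupCohomology ExtCitation

namespace Fermat.Agent.S55.H87

open Fermat.Agent.S55

section Final

variable {p : ℕ} [Fact p.Prime] {S : Finset Nat.Primes}

/-- (K1) of C9b in the shape consumed by (CD): `H³_lc(G_S(E), μ_p) = 0`, from the arithmetic
statement of C9b. -/
theorem k1Statement_of_arith (hpS : pPrime p ∈ S) {T : Type} [AddCommGroup T]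
    (hA : H70.ArithStatement p S T) : H12.K1Statement p S := by
  intro E hE hμ x
  obtain ⟨A, hAg⟩ := hA E hE hμ
  exact (A.main hpS hAg).1 x

/-- (COUNT) at the shared numbers, from REC over `ℚ` and the local leaf of ISOTROPY
(KUMMER is on main). -/
theorem countStatement_of_isoLocal (hp2 : p ≠ 2) (hpS : pPrime p ∈ S) (inv : H62.LocalInv p S)
    (hREC : H62.RECStatement p S inv) (hloc : IsoLocalStatement p S (H62.chiRep p) inv) :
    CountStatement p S (cNum p S) :=
  count_of_kummer_isotropy (cNum p S) (dNum S) (H23.kummerStatement S hpS)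
    (isotropyStatement_of_local hp2 (H62.chiRep p) inv hREC hloc)

/-- **The conclusion of the frozen S55 from the seven remaining leaves of Program C.** -/
theorem s55_of_seven_leaves (hp2 : p ≠ 2) (hpS : pPrime p ∈ S) (inv : H62.LocalInv p S)
    (hsh : H99.ShInjStatement 3) {T : Type} [AddCommGroup T] (hA : H70.ArithStatement p S T)
    (hREC : H62.RECStatement p S inv) (hL : H43.LocalInjP S inv)
    (hlev : ∀ L : IntermediateField ℚ (AlgebraicClosure ℚ), H70.IsLevelField p S L →
      H70.LevelLeaves (T := T) hpS (H43.rPackage S (H62.rpairing p S inv)) (cNum p S) L)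
    (hloc : IsoLocalStatement p S (H62.chiRep p) inv)
    (M : Rep (ZMod p) (AlgebraicClosure ℚ ≃ₐ[ℚ] AlgebraicClosure ℚ))
    [FiniteDimensional (ZMod p) M]
    (hsm : ∀ m : M, ∃ F : IntermediateField ℚ (AlgebraicClosure ℚ), FiniteDimensional ℚ F ∧
      ∀ s ∈ F.fixingSubgroup, M.ρ s m = m)
    (hMur : ∀ q : Nat.Primes, q ∉ S → ∀ A : ValuationSubring (AlgebraicClosure ℚ),
      A.LiesOverPrime (q : ℕ) → ∀ g ∈ A.inertiaSubgroupIn ℚ, M.ρ g = 1) :
    ∃ B : sha₁ S (M.dualTwist (cycloChar p)) →ₗ[ZMod p] sha₂ S M →ₗ[ZMod p] ZMod p,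
      (∀ y, (∀ x, B y x = 0) → y = 0) ∧ (∀ x, (∀ y, B y x = 0) → x = 0) :=
  H62.s55_of_inv_k1 hp2 hpS inv hsh (k1Statement_of_arith hpS hA) hREC hL
    (fun _ => H70.exStatement_of hpS _ (cNum p S) hlev) (cNum p S)
    (H70.hasseStatement_of hpS _ (cNum p S) hlev)
    (countStatement_of_isoLocal hp2 hpS inv hREC hloc) M hsm hMur

end Final

end Fermat.Agent.S55.H87
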