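/-
S55 / Program C (helper87): THE LAST MILE.  The frozen conclusion of S55 from the leaves that are
still open, with every landed leaf plugged in:

* `inv` and local injectivity (L) come from helper26's `H26.IsLocalInvFamily p S ζ₀ inv`
  (ONE global primitive `p`-th root of unity `ζ₀`): existence from (LI1), (L) from (CMP) + (ROOT);
* Shapiro injectivity in degree 3 is helper99's `H99.shInj_three`;
* the bound (D) `H¹_lc(G_S(L), E_S)[p] ↪ V_S/(E_S·Lˣᵖ)` is helper84's `H84.h1Bound_of_isLevelField`;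
* KUMMER, the count, the pairing, the dévissage are inside `s55_of_seven_leaves`.

Open leaves, as hypotheses: (LI1), (CMP), (ROOT) [C4]; `ArithStatement` [C9b (A)]; and, for every
family `inv` of local invariants attached to `ζ₀`: reciprocity over `ℚ` (RECQ), the arithmetic
data with the bridge (C) over every level field, and the local leaf of ISOTROPY (L5).
-/
import Fermat.Agent.S55.H87.C9Final
import Fermat.Agent.S55.H26.LocalTop
import Fermat.Agent.S55.H84.H1Bound
import Fermat.Agent.S55.H99.Shapiro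

set_option autoImplicit false

open CategoryTheory Module groupCohomology ExtCitation

namespace Fermat.Agent.S55.H87

open Fermat.Agent.S55

section Last

variable {p : ℕ} [Fact p.Prime] {S : Finset Nat.Primes}

/-- **The conclusion of the frozen S55 from the open leaves of Program C** (all landed leaves
plugged in; one global root of unity `ζ₀` normalises all local invariants). -/
theorem s55_of_open_leaves_family (hp2 : p ≠ 2) (hpS : pPrime p ∈ S)
    (ζ₀ : AlgebraicClosure ℚ) (hζ₀ : IsPrimitiveRoot ζ₀ p)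
    (hLI1 : ∀ (q : ℕ) [Fact q.Prime], H26.LocalInvExistsStatement p q)
    (hCMP : ∀ (q : ℕ) [Fact q.Prime], H26.LocalInvCompStatement p q)
    (hROOT : ∀ (q : ℕ) [Fact q.Prime], H26.RootExtractStatement p q)
    {T : Type} [AddCommGroup T] (hA : H70.ArithStatement p S T)
    (hREC : ∀ inv : H62.LocalInv p S, H26.IsLocalInvFamily p S ζ₀ inv →
      H62.RECStatement p S inv)
    (hbr : ∀ inv : H62.LocalInv p S, H26.IsLocalInvFamily p S ζ₀ inv →
      ∀ L : IntermediateField ℚ (AlgebraicClosure ℚ), H70.IsLevelField p S L →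
        ∃ A : H70.GSArith S L T, A.Good p ∧
          H70.FieldFormBridge hpS (H43.rPackage S (H62.rpairing p S inv)) L A)
    (hloc : ∀ inv : H62.LocalInv p S, H26.IsLocalInvFamily p S ζ₀ inv →
      IsoLocalStatement p S (H62.chiRep p) inv)
    (M : Rep (ZMod p) (AlgebraicClosure ℚ ≃ₐ[ℚ] AlgebraicClosure ℚ))
    [FiniteDimensional (ZMod p) M]
    (hsm : ∀ m : M, ∃ F : IntermediateField ℚ (AlgebraicClosure ℚ), FiniteDimensional ℚ F ∧
      ∀ s ∈ F.fixingSubgroup, M.ρ s m = m)
    (hMur : ∀ q : Nat.Primes, q ∉ S → ∀ A : ValuationSubring (AlgebraicClosure ℚ),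
      A.LiesOverPrime (q : ℕ) → ∀ g ∈ A.inertiaSubgroupIn ℚ, M.ρ g = 1) :
    ∃ B : sha₁ S (M.dualTwist (cycloChar p)) →ₗ[ZMod p] sha₂ S M →ₗ[ZMod p] ZMod p,
      (∀ y, (∀ x, B y x = 0) → y = 0) ∧ (∀ x, (∀ y, B y x = 0) → x = 0) := by
  obtain ⟨inv, hfam⟩ := H26.exists_localInvFamily p S hLI1 ζ₀ hζ₀
  refine s55_of_seven_leaves hp2 hpS inv H99.shInj_three hA (hREC inv hfam)
    (H26.localInjP_of_family p S hCMP hROOT ζ₀ hζ₀ inv hfam) (fun L hL => ?_) (hloc inv hfam)
    M hsm hMur
  obtain ⟨A, hAg, hAb⟩ := hbr inv hfam L hL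
  exact ⟨A, hAg, hAb, H84.h1Bound_of_isLevelField p S hpS L hL⟩

end Last

end Fermat.Agent.S55.H87
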