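/-
S55 / Program C, package C9a (helper87): THE LOCAL LEAF OF ISOTROPY (L5), UNCONDITIONAL, for
every family of local invariants attached to one global primitive `p`-th root of unity, and the
resulting COUNT and last-mile theorem.

* `isoLocalStatement_of_family : H26.IsLocalInvFamily p S ζ₀ inv → IsoLocalStatement p S 𝔽_p(χ) inv`
  = helper17's assembly `H17.isoLocalStatement_of_leaves` with ISO-ND (`H21.localH1NondegLeaf`),
  ISO-DIM (`H67.isoDimLeaf`) and the closed C4 package (`H26.LocalMain`, `H17.c4_inputs`);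
* `countStatement_of_family`: COUNT at `cNum p S` from reciprocity over `ℚ` alone;
* `s55_of_arith_rec_bridge`: the frozen conclusion of S55 from the three leaves still open:
  `ArithStatement` (C9b (A)), reciprocity over `ℚ` (RECQ), and the arithmetic data with the
  bridge (C) over every level field.
-/
import Fermat.Agent.S55.H87.C9Last
import Fermat.Agent.S55.H17.IsoLocalC4
import Fermat.Agent.S55.H21.IsoND
import Fermat.Agent.S55.H67.IsoDim
import Fermat.Agent.S55.H26.LocalMain

set_option autoImplicit false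

open CategoryTheory Module groupCohomology ExtCitation

namespace Fermat.Agent.S55.H87

open Fermat.Agent.S55 Fermat.Agent.S55.H49 Fermat.Agent.S55.H26

section Plug

variable {p : ℕ} [Fact p.Prime] {S : Finset Nat.Primes}

/-- **Leaf L5 of C9a, unconditional**: the local leaf of ISOTROPY for every family of local
invariants attached to one global primitive `p`-th root of unity. -/
theorem isoLocalStatement_of_family (ζ₀ : AlgebraicClosure ℚ) (hζ₀ : IsPrimitiveRoot ζ₀ p)
    (inv : H62.LocalInv p S) (hfam : IsLocalInvFamily p S ζ₀ inv) :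
    IsoLocalStatement p S (H62.chiRep p) inv := by
  have h : ∀ q : ↥S, ∃ invlc : Hlc (primeDatum S q)
      (mu ((cycloChar p).comp (primeLocalToGlobal q.1))) 2 →ₗ[ZMod p] ZMod p,
      LocalInjStatement (primeDatum S q) ((cycloChar p).comp (primeLocalToGlobal q.1)) invlc ∧
      (∃ z, invlc z ≠ 0) ∧ (primeDatum S q).HasNormalLevels ∧
      ∀ (c : ↥(levelCocycles₂ (primeLocalToGlobal q.1) (H62.chiLoc p S q)))
        (z : cyc (lcComplex (primeDatum S q)
          (mu ((cycloChar p).comp (primeLocalToGlobal q.1)))) 2),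
        (∀ g : Fin 2 → primeLocalGaloisGroup q.1,
          (lcVal z g : ZMod p) = (c : _ × _ → H62.chiLoc p S q) (g 0, g 1)) →
          inv q (continuousH2π _ _ c) = invlc ((cls _ 2).hom z) := by
    intro q
    haveI : Fact ((q.1 : ℕ)).Prime := ⟨q.1.2⟩
    obtain ⟨inv₀, hinv₀, hc⟩ := hfam q
    have hζ : IsPrimitiveRoot (padicEmbedding (q.1 : ℕ) ζ₀) p :=
      hζ₀.map_of_injective (padicEmbedding (q.1 : ℕ)).injective
    obtain ⟨h1, h2, h3⟩ := Fermat.Agent.S55.H17.c4_inputs (p := p) (S := S) q localInjOfCoresSurj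
      Fermat.Agent.S55.H80.coresSurjLeaf (Fermat.Agent.S55.H40.localLevelsStatement (q.1 : ℕ))
      (localTrace_holds p (q.1 : ℕ)) (localInvInj_holds p (q.1 : ℕ)) _ hζ inv₀ hinv₀
    exact ⟨inv₀, h1, h2, h3, hc⟩
  choose invlc hL hne hNorm hinv using h
  exact Fermat.Agent.S55.H17.isoLocalStatement_of_leaves Fermat.Agent.S55.H21.localH1NondegLeaf
    (Fermat.Agent.S55.H67.isoDimLeaf p S) invlc hL hne hNorm inv hinv

/-- **(COUNT) at the shared numbers**, from reciprocity over `ℚ` alone. -/
theorem countStatement_of_family (hp2 : p ≠ 2) (hpS : pPrime p ∈ S)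
    (ζ₀ : AlgebraicClosure ℚ) (hζ₀ : IsPrimitiveRoot ζ₀ p)
    (inv : H62.LocalInv p S) (hfam : IsLocalInvFamily p S ζ₀ inv)
    (hREC : H62.RECStatement p S inv) : CountStatement p S (cNum p S) :=
  countStatement_of_isoLocal hp2 hpS inv hREC (isoLocalStatement_of_family ζ₀ hζ₀ inv hfam)

/-- **The conclusion of the frozen S55 from the three leaves of Program C still open**:
`ArithStatement` (C9b (A)); reciprocity over `ℚ` (RECQ); the arithmetic data with the bridge (C)
over every level field — the last two for every family of local invariants attached to the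
global primitive root `ζ₀`. -/
theorem s55_of_arith_rec_bridge (hp2 : p ≠ 2) (hpS : pPrime p ∈ S)
    (ζ₀ : AlgebraicClosure ℚ) (hζ₀ : IsPrimitiveRoot ζ₀ p)
    {T : Type} [AddCommGroup T] (hA : H70.ArithStatement p S T)
    (hREC : ∀ inv : H62.LocalInv p S, IsLocalInvFamily p S ζ₀ inv → H62.RECStatement p S inv)
    (hbr : ∀ inv : H62.LocalInv p S, IsLocalInvFamily p S ζ₀ inv →
      ∀ L : IntermediateField ℚ (AlgebraicClosure ℚ), H70.IsLevelField p S L →
        ∃ A : H70.GSArith S L T, A.Good p ∧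
          H70.FieldFormBridge hpS (H43.rPackage S (H62.rpairing p S inv)) L A)
    (M : Rep (ZMod p) (AlgebraicClosure ℚ ≃ₐ[ℚ] AlgebraicClosure ℚ))
    [FiniteDimensional (ZMod p) M]
    (hsm : ∀ m : M, ∃ F : IntermediateField ℚ (AlgebraicClosure ℚ), FiniteDimensional ℚ F ∧
      ∀ s ∈ F.fixingSubgroup, M.ρ s m = m)
    (hMur : ∀ q : Nat.Primes, q ∉ S → ∀ A : ValuationSubring (AlgebraicClosure ℚ),
      A.LiesOverPrime (q : ℕ) → ∀ g ∈ A.inertiaSubgroupIn ℚ, M.ρ g = 1) :
    ∃ B : sha₁ S (M.dualTwist (cycloChar p)) →ₗ[ZMod p] sha₂ S M →ₗ[ZMod p] ZMod p,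
      (∀ y, (∀ x, B y x = 0) → y = 0) ∧ (∀ x, (∀ y, B y x = 0) → x = 0) := by
  obtain ⟨inv, hfam⟩ := exists_localInvFamily_holds p S ζ₀ hζ₀
  refine s55_of_seven_leaves hp2 hpS inv Fermat.Agent.S55.H99.shInj_three hA (hREC inv hfam)
    (localInjP_holds p S ζ₀ hζ₀ inv hfam) (fun L hL => ?_)
    (isoLocalStatement_of_family ζ₀ hζ₀ inv hfam) M hsm hMur
  obtain ⟨A, hAg, hAb⟩ := hbr inv hfam L hL
  exact ⟨A, hAg, hAb, Fermat.Agent.S55.H84.h1Bound_of_isLevelField p S hpS L hL⟩

end Plug

end Fermat.Agent.S55.H87
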