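/-
S55 / Program C (helper87): sub-leaf (C-eH) of helper70's `FieldFormBridge` — SHAPIRO IN DEGREE 2
for the base module of a level field, with `μ_p`-coefficients, UNCONDITIONALLY.

For `L ⊆ ℚ̄` finite over `ℚ`, unramified outside `S`, containing `μ_p`, and `ζ` a primitive
`p`-th root of unity:

  `shapiroTwoLc : H²_lc(G_S, 𝔽_p[G_ℚ/G_L]) ≃+ H²_lc(G_S(L), μ_p)`   (`HS S (baseRep p L) 2 ≃+ HMu p S L 2`)
  `shapiroTwo   : continuousH2S S (baseRep p L) ≃+ HMu p S L 2`      (through the C0 bridge)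

with the cocycle formula: the class of `z` goes to the class of
`(h₁, h₂) ↦ ζ ^ (coefficient of z (h₁, h₂) at the coset G_L)` (`shapiroTwoLc_cls`,
`shapiroTwo_spec`).

Ingredients (all on main): `H49.permCoindIso` (`𝔽_p[G/U] ≅ Coind_U^G 𝔽_p`), helper99's Shapiro
lemma `H99.shInj_two`, `H99.shSurj_two`, the C0 bridge `H99.bridgeGlobal2All`, and the change of
coefficients `hlcCoeffEquiv` along `𝔽_p ≃+ μ_p`, `a ↦ ζ ^ a` (`CoeffIso.lean`).
-/
import Fermat.Agent.S55.H87.CoeffIso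
import Fermat.Agent.S55.H87.BaseAdm
import Fermat.Agent.S55.H12.H3Coind
import Fermat.Agent.S55.H99.Shapiro
import Fermat.Agent.S55.H49.PermCoind
import Fermat.Agent.S55.H70.GSCoh
import Fermat.Agent.S55.H43.C0Leaves

set_option autoImplicit false

open CategoryTheory groupCohomology ExtCitation

noncomputable section

namespace Fermat.Agent.S55.H87

open Fermat.Agent.S55.H49 Fermat.Agent.S55.H42 Fermat.Agent.S55.H70

/-! ### `𝔽_p ≃+ μ_p`, `a ↦ ζ ^ a` -/

section Zeta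

variable (p : ℕ) [Fact p.Prime]

/-- `a ↦ ζ ^ a`, `𝔽_p → μ_p`, for `ζ ^ p = 1`. -/
def muOfZMod (ζ : (AlgebraicClosure ℚ)ˣ) (hζ : ζ ^ p = 1) : ZMod p →+ Mux p :=
  ZMod.lift p ⟨zmultiplesHom (Mux p) (unitsRep.mk ζ hζ), by
    show ((p : ℕ) : ℤ) • (unitsRep.mk ζ hζ : Mux p) = 0
    rw [natCast_zsmul]
    apply unitsRep.val_injective
    rw [unitsRep.val_nsmul, unitsRep.val_mk, unitsRep.val_zero]
    exact hζ⟩

theorem val_muOfZMod (ζ : (AlgebraicClosure ℚ)ˣ) (hζ : ζ ^ p = 1) (a : ZMod p) :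
    unitsRep.val (muOfZMod p ζ hζ a) = ζ ^ a.val := by
  haveI : NeZero p := ⟨(Fact.out : p.Prime).ne_zero⟩
  have h1 : muOfZMod p ζ hζ a = muOfZMod p ζ hζ (((a.val : ℕ) : ℤ) : ZMod p) := by
    rw [Int.cast_natCast, ZMod.natCast_zmod_val]
  rw [h1, muOfZMod, ZMod.lift_coe]
  show unitsRep.val (((a.val : ℕ) : ℤ) • (unitsRep.mk ζ hζ : Mux p)) = _
  rw [natCast_zsmul, unitsRep.val_nsmul, unitsRep.val_mk]

theorem muOfZMod_bijective (ζ : (AlgebraicClosure ℚ)ˣ) (hζ : ζ ^ p = 1) (hζ1 : ζ ≠ 1) :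
    Function.Bijective (muOfZMod p ζ hζ) := by
  haveI : NeZero p := ⟨(Fact.out : p.Prime).ne_zero⟩
  have hinj : Function.Injective (muOfZMod p ζ hζ) := by
    rw [injective_iff_map_eq_zero]
    intro a ha
    have h1 : ζ ^ a.val = 1 := by
      rw [← val_muOfZMod p ζ hζ a, ha, unitsRep.val_zero]
    have h2 : orderOf ζ = p := orderOf_eq_prime hζ hζ1
    have h3 : p ∣ a.val := by
      have h := orderOf_dvd_of_pow_eq_one h1
      rwa [h2] at h
    have h4 : a.val = 0 := Nat.eq_zero_of_dvd_of_lt h3 (ZMod.val_lt a)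
    exact (ZMod.val_eq_zero a).mp h4
  haveI : Finite (Mux p) := Nat.finite_of_card_ne_zero (by
    rw [Fermat.Agent.S55.H12.natCard_mux]
    exact (Fact.out : p.Prime).ne_zero)
  refine hinj.bijective_of_nat_card_le ?_
  rw [Fermat.Agent.S55.H12.natCard_mux, Nat.card_zmod]

/-- `𝔽_p ≃+ μ_p`, `a ↦ ζ ^ a`, for a primitive `p`-th root of unity `ζ`. -/
def zetaEquiv (ζ : (AlgebraicClosure ℚ)ˣ) (hζ : ζ ^ p = 1) (hζ1 : ζ ≠ 1) : ZMod p ≃+ Mux p :=
  AddEquiv.ofBijective (muOfZMod p ζ hζ) (muOfZMod_bijective p ζ hζ hζ1)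

theorem val_zetaEquiv (ζ : (AlgebraicClosure ℚ)ˣ) (hζ : ζ ^ p = 1) (hζ1 : ζ ≠ 1) (a : ZMod p) :
    unitsRep.val (zetaEquiv p ζ hζ hζ1 a) = ζ ^ a.val :=
  val_muOfZMod p ζ hζ a

end Zeta

/-! ### Shapiro in degree 2 -/

section Shapiro

variable {p : ℕ} [Fact p.Prime] {S : Finset Nat.Primes}
  (L : IntermediateField ℚ (AlgebraicClosure ℚ))

theorem finite_quotient_fixingSubgroup [FiniteDimensional ℚ L] :
    Finite (H49.GQ ⧸ L.fixingSubgroup) :=
  haveI := Fermat.Agent.S55.H42.finiteIndex_fixingSubgroup L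
  Subgroup.finite_quotient_of_finiteIndex

/-- The trivial `𝔽_p`-representation of `Gal(ℚ̄/L)`. -/
abbrev trivL (p : ℕ) [Fact p.Prime] (L : IntermediateField ℚ (AlgebraicClosure ℚ)) :
    Rep.{0} (ZMod p) ↥L.fixingSubgroup :=
  Rep.res L.fixingSubgroup.subtype (Rep.trivial (ZMod p) H49.GQ (ZMod p))

variable (S) in
/-- `𝔽_p[G/G_L] ≅ Coind 𝔽_p` on `H²_lc`. -/
def permStep (p : ℕ) [Fact p.Prime] (L : IntermediateField ℚ (AlgebraicClosure ℚ))
    [FiniteDimensional ℚ L] :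
    HS S (baseRep p L) 2 →+
      Hlc (globalDatum S) (Rep.coind L.fixingSubgroup.subtype (trivL p L)) 2 :=
  haveI : Finite (H49.GQ ⧸ L.fixingSubgroup) := finite_quotient_fixingSubgroup L
  ((HomologicalComplex.homologyMap
    (lcMapCoeff (globalDatum S) (permCoindIso (k := ZMod p) L.fixingSubgroup).hom) 2).hom :
      _ →ₗ[ZMod p] _).toAddMonoidHom

theorem permStep_bijective [FiniteDimensional ℚ L] :
    Function.Bijective (permStep S p L) := by
  haveI : Finite (H49.GQ ⧸ L.fixingSubgroup) := finite_quotient_fixingSubgroup L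
  have hiso : IsIso (HomologicalComplex.homologyMap
      (lcMapCoeff (globalDatum S) (permCoindIso (k := ZMod p) L.fixingSubgroup).hom) 2) := by
    have h1 : IsIso ((lcFunctor (ZMod p) (globalDatum S)).map
        (permCoindIso (k := ZMod p) L.fixingSubgroup).hom) := inferInstance
    have h2 : IsIso ((HomologicalComplex.homologyFunctor (ModuleCat.{0} (ZMod p))
        (ComplexShape.up ℕ) 2).map ((lcFunctor (ZMod p) (globalDatum S)).map
          (permCoindIso (k := ZMod p) L.fixingSubgroup).hom)) := inferInstance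
    exact h2
  exact ConcreteCategory.bijective_of_isIso (HomologicalComplex.homologyMap
    (lcMapCoeff (globalDatum S) (permCoindIso (k := ZMod p) L.fixingSubgroup).hom) 2)

theorem permStep_cls [FiniteDimensional ℚ L]
    (z : cyc (lcComplex (globalDatum S) (baseRep p L)) 2) :
    haveI : Finite (H49.GQ ⧸ L.fixingSubgroup) := finite_quotient_fixingSubgroup L
    permStep S p L ((cls (lcComplex (globalDatum S) (baseRep p L)) 2).hom z) =
      (cls _ 2).hom (cycMap (lcMapCoeff (globalDatum S)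
        (permCoindIso (k := ZMod p) L.fixingSubgroup).hom) 2 z) :=
  homologyMap_cls _ 2 z

variable (S) in
/-- Helper99's Shapiro map `H²_lc(G_S, Coind 𝔽_p) → H²_lc(G_S(L), 𝔽_p)`. -/
def shStep (p : ℕ) [Fact p.Prime] (L : IntermediateField ℚ (AlgebraicClosure ℚ)) :
    Hlc (globalDatum S) (Rep.coind L.fixingSubgroup.subtype (trivL p L)) 2 →+
      Hlc (fieldDatum S L) (trivL p L) 2 :=
  (Fermat.Agent.S55.H99.sh (Fermat.Agent.S55.H12.isRestrict_fieldDatum (S := S) L)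
    (trivL p L) 2).toAddMonoidHom

theorem shStep_bijective (hLur : L.IsUnramifiedOutside S) :
    Function.Bijective (shStep S p L) :=
  ⟨Fermat.Agent.S55.H99.shInj_two _ _ _ _ _ (Fermat.Agent.S55.H12.isRestrict_fieldDatum (S := S) L)
      (Fermat.Agent.S55.H12.containsLevel_fixingSubgroup (S := S) L hLur) (trivL p L),
    Fermat.Agent.S55.H99.shSurj_two _ _ _ _ _ (Fermat.Agent.S55.H12.isRestrict_fieldDatum (S := S) L)
      (Fermat.Agent.S55.H12.containsLevel_fixingSubgroup (S := S) L hLur) (trivL p L)⟩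

/-- The coefficient change `𝔽_p ≃+ μ_p` is `G_L`-equivariant when `μ_p ⊆ L`. -/
theorem zetaEquiv_equivariant (hμ : ∀ ζ : AlgebraicClosure ℚ, ζ ^ p = 1 → ζ ∈ L)
    (ζ : (AlgebraicClosure ℚ)ˣ) (hζ : ζ ^ p = 1) (hζ1 : ζ ≠ 1)
    (g : ↥L.fixingSubgroup) (m : trivL p L) :
    (show trivL p L ≃+ resF L (Mux p) from zetaEquiv p ζ hζ hζ1) ((trivL p L).ρ g m) =
      (resF L (Mux p)).ρ g ((show trivL p L ≃+ resF L (Mux p) from zetaEquiv p ζ hζ hζ1) m) := by
  rw [Fermat.Agent.S55.H12.resF_mux_trivial p L hμ g]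
  rfl

variable (S) in
/-- **Shapiro in degree 2 for the base module of `L`, on level-constant cohomology.** -/
def shapiroTwoLc (hLur : L.IsUnramifiedOutside S)
    (hμ : ∀ ζ : AlgebraicClosure ℚ, ζ ^ p = 1 → ζ ∈ L)
    (ζ : (AlgebraicClosure ℚ)ˣ) (hζ : ζ ^ p = 1) (hζ1 : ζ ≠ 1) :
    HS S (baseRep p L) 2 ≃+ HMu p S L 2 :=
  haveI : FiniteDimensional ℚ L := hLur.1
  ((AddEquiv.ofBijective (permStep S p L) (permStep_bijective L)).trans
    (AddEquiv.ofBijective (shStep S p L) (shStep_bijective L hLur))).trans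
    (hlcCoeffEquiv (fieldDatum S L) (trivL p L) (resF L (Mux p))
      (show trivL p L ≃+ resF L (Mux p) from zetaEquiv p ζ hζ hζ1)
      (zetaEquiv_equivariant L hμ ζ hζ hζ1) 1)

/-- The cocycle formula for `shapiroTwoLc`. -/
theorem shapiroTwoLc_cls (hLur : L.IsUnramifiedOutside S)
    (hμ : ∀ ζ : AlgebraicClosure ℚ, ζ ^ p = 1 → ζ ∈ L)
    (ζ : (AlgebraicClosure ℚ)ˣ) (hζ : ζ ^ p = 1) (hζ1 : ζ ≠ 1)
    (z : cyc (lcComplex (globalDatum S) (baseRep p L)) 2) :
    ∃ w : cyc (lcComplex (fieldDatum S L) (resF L (Mux p))) 2,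
      (∀ h : Fin 2 → ↥L.fixingSubgroup, unitsRep.val (show Mux p from (lcVal w h : resF L (Mux p))) =
        ζ ^ ((lcVal z (fun i => (h i : H49.GQ)) :
          MonoidAlgebra (ZMod p) (H49.GQ ⧸ L.fixingSubgroup)).coeff
            ((1 : H49.GQ) : H49.GQ ⧸ L.fixingSubgroup)).val) ∧
      shapiroTwoLc S L hLur hμ ζ hζ hζ1 ((cls (lcComplex (globalDatum S) (baseRep p L)) 2).hom z) =
        (cls (lcComplex (fieldDatum S L) (resF L (Mux p))) 2).hom w := by
  haveI : FiniteDimensional ℚ L := hLur.1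
  haveI : Finite (H49.GQ ⧸ L.fixingSubgroup) := finite_quotient_fixingSubgroup L
  let z1 := cycMap (lcMapCoeff (globalDatum S)
    (permCoindIso (k := ZMod p) L.fixingSubgroup).hom) 2 z
  let z2 := cycMap (Fermat.Agent.S55.H99.shCo
    (Fermat.Agent.S55.H12.isRestrict_fieldDatum (S := S) L) (trivL p L)) 2 z1
  refine ⟨coeffCyc (fieldDatum S L) (trivL p L) (resF L (Mux p))
    (show trivL p L ≃+ resF L (Mux p) from zetaEquiv p ζ hζ hζ1).toAddMonoidHom
    (zetaEquiv_equivariant L hμ ζ hζ hζ1) 2 z2, fun h => ?_, ?_⟩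
  · rw [lcVal_coeffCyc]
    show unitsRep.val (zetaEquiv p ζ hζ hζ1 (lcVal z2 h)) = _
    rw [val_zetaEquiv]
    have h0 : lcVal z2 h = (lcVal z (fun i => (h i : H49.GQ)) :
        MonoidAlgebra (ZMod p) (H49.GQ ⧸ L.fixingSubgroup)).coeff
          ((1 : H49.GQ) : H49.GQ ⧸ L.fixingSubgroup) := by
      show ((permCoindIso (k := ZMod p) L.fixingSubgroup).hom.hom
        (lcVal z (fun i => (h i : H49.GQ)))).1 1 = _
      rw [permCoindIso_hom_apply, inv_one]
    rw [h0]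
  · show hlcCoeffEquiv _ _ _ _ _ 1 (shStep S p L (permStep S p L _)) = _
    rw [permStep_cls]
    show hlcCoeffEquiv _ _ _ _ _ 1 (Fermat.Agent.S55.H99.sh _ _ 2 ((cls _ 2).hom z1)) = _
    rw [Fermat.Agent.S55.H99.sh_cls, hlcCoeffEquiv_cls]

/-! ### The Prelude form -/

/-- The base module of a level field is smooth for the global level datum. -/
theorem smooth_baseRep (hL : IsLevelField p S L) : (globalDatum S).Smooth (baseRep p L) := by
  obtain ⟨h1, h2, h3⟩ := baseAdm (p := p) (S := S) L hL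
  haveI := h1
  exact Fermat.Agent.S55.H43.smoothOfHyp p S (baseRep p L) h2 h3

/-- The C0 bridge `continuousH2S S F_L ≃ H²_lc(G_S, F_L)` (helper99's `bridgeGlobal2All`). -/
def bridgeTwo (hL : IsLevelField p S L) :
    continuousH2S S (baseRep p L) ≃ₗ[ZMod p] HS S (baseRep p L) 2 :=
  Classical.choose (Fermat.Agent.S55.H99.bridgeGlobal2All (ZMod p) S (baseRep p L)
    (smooth_baseRep L hL))

theorem bridgeTwo_spec (hL : IsLevelField p S L) :
    (∀ c : levelCocyclesS₂ S (baseRep p L), ∃ z : cyc (lcComplex (globalDatum S) (baseRep p L)) 2,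
      ∀ g : Fin 2 → H49.GQ, lcVal z g = c.1 (g 0, g 1)) ∧
    ∀ (c : levelCocyclesS₂ S (baseRep p L)) (z : cyc (lcComplex (globalDatum S) (baseRep p L)) 2),
      (∀ g : Fin 2 → H49.GQ, lcVal z g = c.1 (g 0, g 1)) →
        bridgeTwo L hL (continuousH2Sπ S (baseRep p L) c) =
          (cls (lcComplex (globalDatum S) (baseRep p L)) 2).hom z :=
  Classical.choose_spec (Fermat.Agent.S55.H99.bridgeGlobal2All (ZMod p) S (baseRep p L)
    (smooth_baseRep L hL))

/-- **(C-eH) Shapiro in degree 2 for the base module of a level field**: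
`H²(G_S, 𝔽_p[G_ℚ/G_L]) ≃+ H²_lc(G_S(L), μ_p)`, on the Prelude's `continuousH2S`. -/
def shapiroTwo (hL : IsLevelField p S L) (ζ : (AlgebraicClosure ℚ)ˣ) (hζ : ζ ^ p = 1)
    (hζ1 : ζ ≠ 1) : continuousH2S S (baseRep p L) ≃+ HMu p S L 2 :=
  (bridgeTwo L hL).toAddEquiv.trans (shapiroTwoLc S L hL.1 hL.2.2 ζ hζ hζ1)

/-- **The cocycle formula for `shapiroTwo`**: the class of the level-`S` cocycle `c` goes to the
class of `(h₁, h₂) ↦ ζ ^ (coefficient of c (h₁, h₂) at the coset G_L)`. -/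
theorem shapiroTwo_spec (hL : IsLevelField p S L) (ζ : (AlgebraicClosure ℚ)ˣ) (hζ : ζ ^ p = 1)
    (hζ1 : ζ ≠ 1) (c : levelCocyclesS₂ S (baseRep p L)) :
    ∃ w : cyc (lcComplex (fieldDatum S L) (resF L (Mux p))) 2,
      (∀ h : Fin 2 → ↥L.fixingSubgroup,
        unitsRep.val (show Mux p from (lcVal w h : resF L (Mux p))) =
          ζ ^ ((c.1 ((h 0 : H49.GQ), (h 1 : H49.GQ)) :
            MonoidAlgebra (ZMod p) (H49.GQ ⧸ L.fixingSubgroup)).coeff
              ((1 : H49.GQ) : H49.GQ ⧸ L.fixingSubgroup)).val) ∧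
      shapiroTwo L hL ζ hζ hζ1 (continuousH2Sπ S (baseRep p L) c) =
        (cls (lcComplex (fieldDatum S L) (resF L (Mux p))) 2).hom w := by
  obtain ⟨hex, hcls⟩ := bridgeTwo_spec L hL
  obtain ⟨z, hz⟩ := hex c
  obtain ⟨w, hw, hwc⟩ := shapiroTwoLc_cls L hL.1 hL.2.2 ζ hζ hζ1 z
  refine ⟨w, fun h => ?_, ?_⟩
  · rw [hw h, hz]
  · show shapiroTwoLc S L hL.1 hL.2.2 ζ hζ hζ1
      (bridgeTwo L hL (continuousH2Sπ S (baseRep p L) c)) = _
    rw [hcls c z hz, hwc]

end Shapiro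

end Fermat.Agent.S55.H87
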