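/-
S55 (Poitou–Tate), package C8, assembly (CLASS-PBOUND) of helper29's SPEC v2 part 3 — helper87.

`classPBound_of_leaves` : `#H²(Gal(K/k), C_K) ∣ [K : k]` for the `p`-group layers `K/k` of number
fields with `μ_p ⊆ k` (`H29.ClassPBoundStatement p`), from (CLASS-CYC), (CLASS-H1) and
(CLASS-INFRES).

Proof: induction on `n`, `[K : k] = p ^ n`.
* `n = 0` : `Gal(K/k)` is trivial, so `H²(Gal(K/k), C_K) = 0`.
* `n + 1` : `Gal(K/k)` has a normal subgroup `N` of index `p`; `K₁ :=` the fixed field of `N` is
  Galois (cyclic) over `k` of degree `p`, and `[K : K₁] = p ^ n`.  By (CLASS-H1) for `K/K₁` and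
  (CLASS-INFRES) for `k ⊆ K₁ ⊆ K`, the sequence
  `H²(Gal(K₁/k), C_{K₁}) → H²(Gal(K/k), C_K) → H²(Gal(K/K₁), C_K)` is exact in the middle;
  the left term has `p` elements (CLASS-CYC) and the order of the right term divides `p ^ n`.
-/
import Fermat.Agent.S55.H29.C8Cls
import Fermat.Agent.S55.H45.PrimeLayers

set_option autoImplicit false
set_option linter.style.haveILetI false

open CategoryTheory groupCohomology Rep

noncomputable section

namespace Fermat.Agent.S55.H87

open Fermat.Agent.S55.H88 Fermat.Agent.S55.H66 Fermat.Agent.S55.H29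

/-- **Assembly (CLASS-PBOUND).** -/
theorem classPBound_of_leaves (p : ℕ) (hCyc : ClassCycStatement p) (hH1 : ClassH1Statement p)
    (hIR : ClassInfResStatement) : ClassPBoundStatement p := by
  intro hp hp2 n
  haveI : Fact p.Prime := ⟨hp⟩
  induction n with
  | zero =>
    intro k K _ _ _ _ _ _ _ hn
    haveI : Subsingleton (K ≃ₐ[k] K) := by
      rw [← Finite.card_le_one_iff_subsingleton, IsGalois.card_aut_eq_finrank, hn, pow_zero]
    have h : Limits.IsZero (groupCohomology (ideleClassRep k K) (1 + 1)) :=
      isZero_groupCohomology_succ_of_subsingleton (ideleClassRep k K) 1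
    haveI hs : Subsingleton (groupCohomology (ideleClassRep k K) 2) :=
      ModuleCat.subsingleton_of_isZero h
    rw [Nat.card_of_subsingleton (0 : groupCohomology (ideleClassRep k K) 2), pow_zero]
  | succ n ih =>
    intro k K _ _ _ _ _ _ hζ hn
    obtain ⟨ζ, hζ⟩ := hζ
    have hcard : Nat.card (K ≃ₐ[k] K) = p ^ (n + 1) := by
      rw [IsGalois.card_aut_eq_finrank, hn]
    obtain ⟨N, hNn, hN, -⟩ := Fermat.Agent.S55.H45.exists_normal_index_prime hp hcard
    haveI := hNn
    have hEK : Module.finrank (IntermediateField.fixedField N) K = p ^ n := by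
      rw [IntermediateField.finrank_fixedField_eq_card, hN]
    have hkE : Module.finrank k (IntermediateField.fixedField N) = p := by
      have h := Module.finrank_mul_finrank k (IntermediateField.fixedField N) K
      rw [hEK, hn, pow_succ, mul_comm] at h
      exact Nat.eq_of_mul_eq_mul_left (pow_pos hp.pos n) h
    haveI : IsGalois k (IntermediateField.fixedField N) :=
      IsGalois.of_fixedField_normal_subgroup N
    haveI : IsCyclic ((IntermediateField.fixedField N) ≃ₐ[k] (IntermediateField.fixedField N)) :=
      isCyclic_of_prime_card (p := p) (by rw [IsGalois.card_aut_eq_finrank, hkE])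
    have hζE : IsPrimitiveRoot (algebraMap k (IntermediateField.fixedField N) ζ) p :=
      hζ.map_of_injective (algebraMap k _).injective
    obtain ⟨-, hA⟩ := hCyc hp hp2 k (IntermediateField.fixedField N) ⟨ζ, hζ⟩ 1
      (by rw [hkE, pow_one])
    have hC := ih (IntermediateField.fixedField N) K ⟨_, hζE⟩ hEK
    have hH1' := hH1 hp hp2 (IntermediateField.fixedField N) K ⟨_, hζE⟩ ⟨n, hEK⟩
    obtain ⟨-, hex⟩ := hIR k (IntermediateField.fixedField N) K hH1'
    have key := Fermat.Agent.S55.H45.natCard_dvd_mul_of_exact
      (groupCohomology.map (AlgEquiv.restrictNormalHom (F := k) (K₁ := K)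
        (IntermediateField.fixedField N)) (classInfl k (IntermediateField.fixedField N) K)
          2).hom.toAddMonoidHom
      (groupCohomology.map (subGal k (IntermediateField.fixedField N) K)
        (classSub k (IntermediateField.fixedField N) K) 2).hom.toAddMonoidHom
      hex (a := p) (b := p ^ n) hp.ne_zero (pow_ne_zero _ hp.ne_zero)
      (by rw [hA, pow_one]) hC
    rw [pow_succ, mul_comm]
    exact key

end Fermat.Agent.S55.H87
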