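/-
S55 / Program C (helper87): CHANGE OF COEFFICIENT RING in level-constant cohomology, as a MAP.

An additive equivariant map `e : M →+ M'` between a `k`-representation `M` and a
`k'`-representation `M'` of the same group (`k`, `k'` arbitrary commutative rings) induces an
additive map `hlcCoeff : Hlc D M (n+1) →+ Hlc D M' (n+1)`, `[z] ↦ [e ∘ z]`; for an additive
equivalence `e` it is an additive equivalence (`hlcCoeffEquiv`).

(`H12/CoeffChange.lean` has the cochain lemmas and the transport of vanishing; here is the map.)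
-/
import Fermat.Agent.S55.H12.CoeffChange

set_option autoImplicit false

open CategoryTheory groupCohomology

noncomputable section

namespace Fermat.Agent.S55.H87

open Fermat.Agent.S55.H49

section Coeff

variable {k k' : Type} [CommRing k] [CommRing k'] {G : Type} [Group G]
variable (D : LevelDatum G) (M : Rep.{0} k G) (M' : Rep.{0} k' G) (e : M →+ M')
  (he : ∀ g m, e (M.ρ g m) = M'.ρ g (e m))

/-- `y ↦ e ∘ y` on level-constant cochains. -/
def coeffX (n : ℕ) : (lcComplex D M).X n →+ (lcComplex D M').X n where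
  toFun y := (⟨fun g => e (lcValC y g),
    Fermat.Agent.S55.H12.isLC_comp_addMonoidHom D M M' e he
      (show lcCochains D M n from y).2⟩ : lcCochains D M' n)
  map_zero' := by
    apply lcValC_injective
    funext g
    exact map_zero e
  map_add' y y' := by
    apply lcValC_injective
    funext g
    exact map_add e _ _

theorem lcValC_coeffX (n : ℕ) (y : (lcComplex D M).X n) (g : Fin n → G) :
    lcValC (coeffX D M M' e he n y) g = e (lcValC y g) := rfl

/-- `coeffX` commutes with the differentials. -/
theorem coeffX_d (n : ℕ) (y : (lcComplex D M).X n) :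
    ((lcComplex D M').d n (n + 1)).hom (coeffX D M M' e he n y) =
      coeffX D M M' e he (n + 1) (((lcComplex D M).d n (n + 1)).hom y) := by
  apply lcValC_injective
  rw [Fermat.Agent.S55.H99.lcValC_d]
  funext g
  rw [lcValC_coeffX, Fermat.Agent.S55.H99.lcValC_d]
  exact congrFun (Fermat.Agent.S55.H12.d_comp_addMonoidHom M M' e he n (lcValC y)) g

/-- `z ↦ e ∘ z` on level-constant cocycles. -/
def coeffCyc (n : ℕ) : cyc (lcComplex D M) n →+ cyc (lcComplex D M') n where
  toFun z := ⟨coeffX D M M' e he n z.1, by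
    rw [mem_cyc, coeffX_d, mem_cyc.mp z.2, map_zero]⟩
  map_zero' := Subtype.ext (map_zero (coeffX D M M' e he n))
  map_add' z z' := Subtype.ext (map_add (coeffX D M M' e he n) z.1 z'.1)

theorem lcVal_coeffCyc (n : ℕ) (z : cyc (lcComplex D M) n) (g : Fin n → G) :
    lcVal (coeffCyc D M M' e he n z) g = e (lcVal z g) := rfl

/-- The class of `e ∘ z`, as a function of the cocycle `z`. -/
def coeffCls (n : ℕ) : cyc (lcComplex D M) (n + 1) →+ Hlc D M' (n + 1) :=
  ((cls (lcComplex D M') (n + 1)).hom : cyc (lcComplex D M') (n + 1) →ₗ[k'] _).toAddMonoidHom.comp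
    (coeffCyc D M M' e he (n + 1))

theorem coeffCls_apply (n : ℕ) (z : cyc (lcComplex D M) (n + 1)) :
    coeffCls D M M' e he n z =
      (cls (lcComplex D M') (n + 1)).hom (coeffCyc D M M' e he (n + 1) z) := rfl

theorem coeffCls_eq_zero (n : ℕ) (z : cyc (lcComplex D M) (n + 1))
    (hz : (cls (lcComplex D M) (n + 1)).hom z = 0) : coeffCls D M M' e he n z = 0 := by
  obtain ⟨y, hy⟩ := (cls_eq_zero_iff (lcComplex D M) n z).mp hz
  rw [coeffCls_apply]
  refine (cls_eq_zero_iff (lcComplex D M') n _).mpr ⟨coeffX D M M' e he n y, ?_⟩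
  rw [coeffX_d, hy]
  rfl

/-- The class map, as an additive map. -/
def clsAdd (n : ℕ) : cyc (lcComplex D M) n →+ Hlc D M n :=
  ((cls (lcComplex D M) n).hom : cyc (lcComplex D M) n →ₗ[k] _).toAddMonoidHom

theorem clsAdd_apply (n : ℕ) (z : cyc (lcComplex D M) n) :
    clsAdd D M n z = (cls (lcComplex D M) n).hom z := rfl

theorem clsAdd_surjective (n : ℕ) : Function.Surjective (clsAdd D M n) :=
  cls_surjective (lcComplex D M) n

/-- **Change of coefficients** on level-constant cohomology in positive degree:
`[z] ↦ [e ∘ z]`. -/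
def hlcCoeff (n : ℕ) : Hlc D M (n + 1) →+ Hlc D M' (n + 1) :=
  AddMonoidHom.liftOfSurjective (clsAdd D M (n + 1)) (clsAdd_surjective D M (n + 1))
    ⟨coeffCls D M M' e he n, fun z hz => coeffCls_eq_zero D M M' e he n z hz⟩

theorem hlcCoeff_cls (n : ℕ) (z : cyc (lcComplex D M) (n + 1)) :
    hlcCoeff D M M' e he n ((cls (lcComplex D M) (n + 1)).hom z) =
      (cls (lcComplex D M') (n + 1)).hom (coeffCyc D M M' e he (n + 1) z) :=
  AddMonoidHom.liftOfRightInverse_comp_apply _ _ _ _ z

end Coeff

section CoeffEquiv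

variable {k k' : Type} [CommRing k] [CommRing k'] {G : Type} [Group G]
variable (D : LevelDatum G) (M : Rep.{0} k G) (M' : Rep.{0} k' G) (e : M ≃+ M')
  (he : ∀ g m, e (M.ρ g m) = M'.ρ g (e m))

include he in
theorem symm_equivariant (g : G) (m' : M') : e.symm (M'.ρ g m') = M.ρ g (e.symm m') := by
  apply e.injective
  rw [he, e.apply_symm_apply, e.apply_symm_apply]

/-- **Change of coefficients** along an additive equivariant equivalence is an additive
equivalence on level-constant cohomology in positive degree. -/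
def hlcCoeffEquiv (n : ℕ) : Hlc D M (n + 1) ≃+ Hlc D M' (n + 1) where
  toFun := hlcCoeff D M M' e.toAddMonoidHom he n
  invFun := hlcCoeff D M' M e.symm.toAddMonoidHom (symm_equivariant M M' e he) n
  left_inv x := by
    obtain ⟨z, rfl⟩ := cls_surjective (lcComplex D M) (n + 1) x
    rw [hlcCoeff_cls, hlcCoeff_cls]
    congr 1
    apply lcVal_injective
    funext g
    exact e.symm_apply_apply _
  right_inv x := by
    obtain ⟨z, rfl⟩ := cls_surjective (lcComplex D M') (n + 1) x
    rw [hlcCoeff_cls, hlcCoeff_cls]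
    congr 1
    apply lcVal_injective
    funext g
    exact e.apply_symm_apply _
  map_add' := map_add _

theorem hlcCoeffEquiv_cls (n : ℕ) (z : cyc (lcComplex D M) (n + 1)) :
    hlcCoeffEquiv D M M' e he n ((cls (lcComplex D M) (n + 1)).hom z) =
      (cls (lcComplex D M') (n + 1)).hom (coeffCyc D M M' e.toAddMonoidHom he (n + 1) z) :=
  hlcCoeff_cls D M M' e.toAddMonoidHom he n z

end CoeffEquiv

end Fermat.Agent.S55.H87
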