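/-
S55 / Program C (helper87): THE TOP CLOSING FILE.

The conclusion of the frozen S55 from the two Props of Program C that are still being closed:

* `H29.LiftStatement p`                       (C8 part 3, (B4): the class-formation lift;
                                               assembled by helper18's `H18.liftStatement_of`),
* `H70.LamStatement p S (H63.pPart p)`        (C9b, (L2-P) + (HLAM); helper11 / helper56).

Everything else is plugged in from main:

* `H6.cycloRecStatement`                      (B2: reciprocity in cyclic cyclotomic layers),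
* `H39.h3QSStatement_of_lift`                 (B4 in consumer form),
* `H70.arithStatement_of_three`               (C9b: the arithmetic of `G_S(E)`),
* `H70.recStatement_of_cycloRec` + `H23.RecQ.recStatement_of_family`   (RECQ),
* `H54.bridge_family_of_three`                (the bridge (C) over every level field),
* `H87.s55_of_arith_rec_bridge`               (Route R top, C9a, C4, Shapiro, (D)).
-/
import Fermat.Agent.S55.H87.IsoPlug
import Fermat.Agent.S55.H54.LevelTop
import Fermat.Agent.S55.H23.RecQFinal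
import Fermat.Agent.S55.H6.RecCycloFinal
import Fermat.Agent.S55.H39.H3QS

set_option autoImplicit false

open CategoryTheory Module groupCohomology ExtCitation

namespace Fermat.Agent.S55.H87

open Fermat.Agent.S55

section Closed

variable {p : ℕ} [Fact p.Prime] {S : Finset Nat.Primes}

/-- A primitive `p`-th root of unity of `ℚ̄`. -/
theorem exists_primitiveRoot_qbar (p : ℕ) [Fact p.Prime] :
    ∃ ζ₀ : AlgebraicClosure ℚ, IsPrimitiveRoot ζ₀ p := by
  have hpr : p.Prime := Fact.out
  haveI : NeZero (p : AlgebraicClosure ℚ) := ⟨by exact_mod_cast hpr.ne_zero⟩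
  haveI : NeZero p := ⟨hpr.ne_zero⟩
  exact HasEnoughRootsOfUnity.exists_primitiveRoot (AlgebraicClosure ℚ) p

/-- **The conclusion of the frozen S55 from (B4) in consumer form and (LAM).** -/
theorem s55_of_h3QS_lam (hp2 : p ≠ 2) (hpS : pPrime p ∈ S)
    (hH3 : H70.H3QSStatement p S) (hLam : H70.LamStatement p S (H63.pPart p))
    (M : Rep (ZMod p) (AlgebraicClosure ℚ ≃ₐ[ℚ] AlgebraicClosure ℚ))
    [FiniteDimensional (ZMod p) M]
    (hsm : ∀ m : M, ∃ F : IntermediateField ℚ (AlgebraicClosure ℚ), FiniteDimensional ℚ F ∧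
      ∀ s ∈ F.fixingSubgroup, M.ρ s m = m)
    (hMur : ∀ q : Nat.Primes, q ∉ S → ∀ A : ValuationSubring (AlgebraicClosure ℚ),
      A.LiesOverPrime (q : ℕ) → ∀ g ∈ A.inertiaSubgroupIn ℚ, M.ρ g = 1) :
    ∃ B : sha₁ S (M.dualTwist (cycloChar p)) →ₗ[ZMod p] sha₂ S M →ₗ[ZMod p] ZMod p,
      (∀ y, (∀ x, B y x = 0) → y = 0) ∧ (∀ x, (∀ y, B y x = 0) → x = 0) := by
  obtain ⟨ζ₀, hζ₀⟩ := exists_primitiveRoot_qbar p
  have hCR : H29.CycloRecStatement p := H6.cycloRecStatement p
  have hRec : H29.RecStatement H29.NFLayer p := H70.recStatement_of_cycloRec hp2 hCR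
  have hREC : ∀ inv : H62.LocalInv p S, H26.IsLocalInvFamily p S ζ₀ inv →
      H62.RECStatement p S inv := fun inv hfam =>
    H23.RecQ.recStatement_of_family hpS hζ₀.pow_eq_one hfam hRec
  exact s55_of_arith_rec_bridge hp2 hpS ζ₀ hζ₀ (T := H66.QZ)
    (H70.arithStatement_of_three hp2 hpS hCR hH3 hLam) hREC
    (fun inv hfam L hL =>
      H54.bridge_family_of_three hp2 hpS ζ₀ hζ₀ hCR hH3 hLam inv hfam (hREC inv hfam) L hL)
    M hsm hMur

/-- **The conclusion of the frozen S55 from (LIFT) and (LAM)**: the two Props of Program C still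
being closed. -/
theorem s55_of_lift_lam (hp2 : p ≠ 2) (hpS : pPrime p ∈ S)
    (hLift : H29.LiftStatement p) (hLam : H70.LamStatement p S (H63.pPart p))
    (M : Rep (ZMod p) (AlgebraicClosure ℚ ≃ₐ[ℚ] AlgebraicClosure ℚ))
    [FiniteDimensional (ZMod p) M]
    (hsm : ∀ m : M, ∃ F : IntermediateField ℚ (AlgebraicClosure ℚ), FiniteDimensional ℚ F ∧
      ∀ s ∈ F.fixingSubgroup, M.ρ s m = m)
    (hMur : ∀ q : Nat.Primes, q ∉ S → ∀ A : ValuationSubring (AlgebraicClosure ℚ),
      A.LiesOverPrime (q : ℕ) → ∀ g ∈ A.inertiaSubgroupIn ℚ, M.ρ g = 1) :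
    ∃ B : sha₁ S (M.dualTwist (cycloChar p)) →ₗ[ZMod p] sha₂ S M →ₗ[ZMod p] ZMod p,
      (∀ y, (∀ x, B y x = 0) → y = 0) ∧ (∀ x, (∀ y, B y x = 0) → x = 0) :=
  s55_of_h3QS_lam hp2 hpS (H39.h3QSStatement_of_lift hp2 hpS hLift) hLam M hsm hMur

end Closed

end Fermat.Agent.S55.H87
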